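import Fermat.Agent.INJ.Deep.Defs

/-!
# INJ / Deep : every `INJ.RedData` (one valuation) is an `ND`
-/

set_option autoImplicit false

namespace Fermat.Agent.INJ.Deep

variable {K F k Fb : Type*} [Field K] [Field F] [Algebra K F] [Field k] [Field Fb] [Algebra k Fb]

theorem ra_eq_zero_of_inv_not_mem (D : RedData K F k Fb) {a : K} (ha : a ∈ D.A)
    (ha' : a⁻¹ ∉ D.A) : D.ra a = 0 := by
  by_contra h
  have h1 : D.rd (algebraMap K F a) ≠ 0 := by
    rw [RedData.rd_algebraMap ha]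
    exact (_root_.map_ne_zero _).2 h
  have h2 := RedData.inv_mem_of_rd_ne_zero h1
  rw [← map_inv₀] at h2
  exact ha' ((D.mem_iff _).1 h2)

/-- the `ND` attached to a `RedData`; `w₀` is any nonzero element of `𝔪_A`. -/
noncomputable def ofRed (D : RedData K F k Fb) (w₀ : K) (h₀ : w₀ ∈ D.A ∧ w₀⁻¹ ∉ D.A) :
    ND K F Fb where
  A := D.A
  O := D.O.toSubring
  rO := D.rO
  alg_mem := fun _ ha => RedData.algebraMap_mem ha
  small := by
    intro a y ha ha' hy h
    have hy' : y ∈ D.O := hy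
    have h1 : D.rd (algebraMap K F a * y) = 0 := by
      rw [RedData.rd_mul (RedData.algebraMap_mem ha) hy', RedData.rd_algebraMap ha,
        ra_eq_zero_of_inv_not_mem D ha ha', map_zero, zero_mul]
    have h' : algebraMap K F a * y ∈ D.O := h
    rw [RedData.rd_of_mem h'] at h1
    exact h1
  ker := by
    rintro ⟨x, hx⟩ h
    have hx' : x ∈ D.O := hx
    have hrd : D.rd x = 0 := by rw [RedData.rd_of_mem hx']; exact h
    by_cases hx0 : x = 0
    · exact ⟨w₀, 0, h₀.1, h₀.2, D.O.zero_mem, by simp [hx0]⟩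
    obtain ⟨a, ha0, h1, h2⟩ := D.unram x hx0
    have hA0 : algebraMap K F a ≠ 0 := (_root_.map_ne_zero _).2 ha0
    have e : algebraMap K F a⁻¹ = x * (x * algebraMap K F a)⁻¹ := by
      rw [map_inv₀]; field_simp
    have hmem : algebraMap K F a⁻¹ ∈ D.O := by rw [e]; exact mul_mem hx' h2
    have hz : D.rd (algebraMap K F a⁻¹) = 0 := by
      rw [e, RedData.rd_mul hx' h2, hrd, zero_mul]
    refine ⟨a⁻¹, x * algebraMap K F a, (D.mem_iff _).1 hmem, ?_, h1, ?_⟩
    · rw [inv_inv]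
      intro haA
      have h3 : D.rd (algebraMap K F a⁻¹ * algebraMap K F a) = 0 := by
        rw [RedData.rd_mul hmem (RedData.algebraMap_mem haA), hz, zero_mul]
      rw [← map_mul, inv_mul_cancel₀ ha0, map_one, RedData.rd_one] at h3
      exact one_ne_zero h3
    · show x = algebraMap K F a⁻¹ * (x * algebraMap K F a)
      rw [map_inv₀]; field_simp
  unit := by
    rintro ⟨x, hx⟩ h
    have hx' : x ∈ D.O := hx
    have hrd : D.rd x ≠ 0 := by
      rw [RedData.rd_of_mem hx']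
      have : D.rO ⟨x, hx'⟩ = 1 := h
      rw [this]; exact one_ne_zero
    exact RedData.inv_mem_of_rd_ne_zero hrd

variable (D : RedData K F k Fb) (w₀ : K) (h₀ : w₀ ∈ D.A ∧ w₀⁻¹ ∉ D.A)

@[simp] theorem ofRed_A : (ofRed D w₀ h₀).A = D.A := rfl

theorem mem_ofRed_O {x : F} : x ∈ (ofRed D w₀ h₀).O ↔ x ∈ D.O := Iff.rfl

theorem ofRed_rd (x : F) : (ofRed D w₀ h₀).rd x = D.rd x := by
  by_cases hx : x ∈ D.O
  · rw [RedData.rd_of_mem hx, ND.rd_of_mem ((mem_ofRed_O D w₀ h₀).2 hx)]; rfl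
  · rw [RedData.rd_of_not_mem hx, ND.rd_of_not_mem (fun h => hx ((mem_ofRed_O D w₀ h₀).1 h))]

theorem ofRed_sm_iff {a : K} : (ofRed D w₀ h₀).Sm a ↔ a ∈ D.A ∧ a⁻¹ ∉ D.A := Iff.rfl

theorem ofRed_sm_of_ra {a : K} (ha0 : a ≠ 0) (ha : a ∈ D.A) (h : D.ra a = 0) :
    (ofRed D w₀ h₀).Sm a := by
  refine ⟨ha, fun h' => ?_⟩
  have h1 : D.rd (algebraMap K F a * algebraMap K F a⁻¹) = 0 := by
    rw [RedData.rd_mul (RedData.algebraMap_mem ha) (RedData.algebraMap_mem h'),
      RedData.rd_algebraMap ha, h, map_zero, zero_mul]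
  rw [← map_mul, mul_inv_cancel₀ ha0, map_one, RedData.rd_one] at h1
  exact one_ne_zero h1

theorem ofRed_arch (h : Arch D) : (ofRed D w₀ h₀).Arch := by
  intro π hπ a ha
  exact h π hπ.1 (ra_eq_zero_of_inv_not_mem D hπ.1 hπ.2) a ha

end Fermat.Agent.INJ.Deep
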