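import Fermat.Agent.INJ.Deep.Adapter
import Fermat.Agent.INJ.Interface

/-!
# INJ / Deep : statements of the packages (all `Prop`s; each is proved in its own file)

Goal (Theorem A, `Stmt_DeepA`): residue characteristic `p`, `w ^ (p - 1) = - p`, `u ∈ F` locally a
`p`-th power times a unit, `u ≡ 1 mod w ^ p π' O` (`|π'| < 1`), good reduction  ⟹  `u` is a `p`-th
power.  Theorem D'' (`Stmt_Twist` + `Stmt_Core`): the same for `s(u) / u ^ a` on a nodal fibre.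

Notation in the comments: `B` = integral closure of `K[t]` in `F`, `BB = B ∩ O`, `Bbar = rd BB`,
`M = {x ∈ O : x ^ p u ∈ B}`; `x ≡ y mod a` means `D.Cg a x y`.
-/

set_option autoImplicit false

namespace Fermat.Agent.INJ.Deep

open Polynomial IntermediateField

/-- `p` is a prime, `w ∈ 𝔪_A`, `w ^ (p - 1) = - p`  (so `p w = - w ^ p`, `|w| = |1 - ζ_p|`). -/
def IsW {K F E : Type*} [Field K] [Field F] [Algebra K F] [CommRing E] (D : ND K F E) (p : ℕ)
    (w : K) : Prop :=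
  p.Prime ∧ D.Sm w ∧ w ^ (p - 1) = -(p : K)

/-- DEEP-0a.  Binomial formula for a prime exponent, with control of the remainder. -/
def Stmt_Binom : Prop :=
  ∀ (R : Type) [CommRing R] (S : Subring R) (p : ℕ), p.Prime → ∀ b ∈ S, ∀ c ∈ S,
    ∃ r ∈ S, (b + c) ^ p = b ^ p + (p : R) * (b ^ (p - 1) * c + c ^ 2 * r) + c ^ p

/-- DEEP-0b.  `x ≡ 1 mod w π` implies `x ^ p ≡ 1 mod w ^ p π`  (`π ∈ A`, `π ≠ 0`). -/
def Stmt_PowCg : Prop :=
  ∀ (K F E : Type) [Field K] [Field F] [Algebra K F] [CommRing E] (D : ND K F E) (p : ℕ)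
    (w π : K), IsW D p w → π ∈ D.A → ∀ x : F, D.Cg (w * π) x 1 → D.Cg (w ^ p * π) (x ^ p) 1

/-- DEEP-1 (approximation up to level `w`).  An element `x ∈ M` with `rd x = 1` can be replaced by
`x' = b + w y ∈ M`, `b ∈ BB`, `y ∈ O`, and then `ybar ^ p - ybar ∈ Bbar`. -/
def Stmt_L1 : Prop :=
  ∀ (K F E : Type) [Field K] [Field F] [Algebra K F] [CommRing E] [Nontrivial E] (D : ND K F E)
    (t u : F) (p : ℕ) (w π' : K), IsW D p w → D.Sm π' → D.Cg (w ^ p * π') u 1 →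
    BA D t → Cl1 D t p →
    ∀ x ∈ D.O, D.rd x = 1 → IsInt K t (x ^ p * u) →
    ∃ x' b y : F, x' ∈ D.O ∧ IsInt K t (x' ^ p * u) ∧ b ∈ D.O ∧ IsInt K t b ∧ y ∈ D.O ∧
      x' = b + algebraMap K F w * y ∧ D.rd b = 1 ∧ D.InB t (D.rd y ^ p - D.rd y)

/-- DEEP-3 (from level `w` to a deep section). -/
def Stmt_L3 : Prop :=
  ∀ (K F E : Type) [Field K] [Field F] [Algebra K F] [CommRing E] [Nontrivial E] (D : ND K F E)
    (t u : F) (p : ℕ) (w π' : K), IsW D p w → D.Sm π' → D.Cg (w ^ p * π') u 1 → D.Arch →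
    ∀ x b y : F, x ∈ D.O → IsInt K t (x ^ p * u) → b ∈ D.O → IsInt K t b → y ∈ D.O →
      x = b + algebraMap K F w * y → D.rd b = 1 → D.InB t (D.rd y) →
      ∃ (π : K) (x₁ : F), D.Sm π ∧ DeepSec D t u p w π x₁

/-- DEEP-4 (deep Newton iteration on one chart). -/
def Stmt_L4 : Prop :=
  ∀ (K F E : Type) [Field K] [Field F] [Algebra K F] [CommRing E] [Nontrivial E] (D : ND K F E)
    (t u : F) (p : ℕ) (w π : K), IsW D p w → D.Sm π →
    ∀ x : F, DeepSec D t u p w π x → ∀ n : ℕ, 0 < n →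
      ∃ x' : F, x' ∈ D.O ∧ IsInt K t (x' ^ p * u) ∧ D.Cg (w * π) x' 1 ∧
        D.Cg (w ^ p * π ^ n) (x' ^ p * u) 1

/-- DEEP-5 (two deep sections are close). -/
def Stmt_L5 : Prop :=
  ∀ (K F E : Type) [Field K] [Field F] [Algebra K F] [CommRing E] [Nontrivial E] (D : ND K F E)
    (u : F) (p : ℕ) (w π : K) (n : ℕ), IsW D p w → D.Sm π → 0 < n → D.rd u = 1 →
    ∀ x₁ x₂ : F, D.Cg (w * π) x₁ 1 → D.Cg (w * π) x₂ 1 →
      D.Cg (w ^ p * π ^ n) (x₁ ^ p * u) 1 → D.Cg (w ^ p * π ^ n) (x₂ ^ p * u) 1 →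
      D.Cg (w * π ^ n) x₂ x₁

/-- DEEP-6 (global assembly): deep sections on both charts + bounded torsion + `B ∩ B' = K`
⟹ `u` is a `p`-th power. -/
def Stmt_Core : Prop :=
  ∀ (K F E : Type) [Field K] [Field F] [Algebra K F] [CommRing E] [Nontrivial E] [IsAlgClosed K]
    (D : ND K F E) (t u : F) (p : ℕ) (w : K), IsW D p w → D.Arch → D.rd u = 1 →
    BTc D t u p → Cst K t →
    (∃ (π : K) (x : F), D.Sm π ∧ DeepSec D t u p w π x) →
    (∃ (π : K) (x : F), D.Sm π ∧ DeepSec D t⁻¹ u p w π x) →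
    ∃ y : F, y ^ p = u

/-- DEEP-7 (best approximation for one Gauss valuation, from the orthonormal basis `INJ.P6`). -/
def Stmt_BARed : Prop :=
  ∀ (K F k Fb : Type) [Field K] [Field F] [Algebra K F] [Field k] [Field Fb] [Algebra k Fb]
    [IsAlgClosed K] [CharZero K] (D : RedData K F k Fb) (w₀ : K) (h₀ : w₀ ∈ D.A ∧ w₀⁻¹ ∉ D.A)
    (t : F), Chart D t → BA (ofRed D w₀ h₀) t

/-- DEEP-8 (normality ⟹ `Bbar` is closed under `p`-th roots and Artin–Schreier roots). -/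
def Stmt_ClRed : Prop :=
  ∀ (K F k Fb : Type) [Field K] [Field F] [Algebra K F] [Field k] [Field Fb] [Algebra k Fb]
    [IsAlgClosed K] [CharZero K] (D : RedData K F k Fb) (w₀ : K) (h₀ : w₀ ∈ D.A ∧ w₀⁻¹ ∉ D.A)
    (t : F), Chart D t → Branch D t → ∀ p : ℕ, p.Prime →
      Cl1 (ofRed D w₀ h₀) t p ∧ Cl2 (ofRed D w₀ h₀) t p

/-- DEEP-9 = **Theorem A** (deep Claim K; exponent = residue characteristic, good reduction). -/
def Stmt_DeepA : Prop :=
  ∀ (K F k Fb : Type) [Field K] [Field F] [Algebra K F] [Field k] [Field Fb] [Algebra k Fb]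
    [IsAlgClosed K] [CharZero K] (D : RedData K F k Fb) (t : F),
    Chart D t → Chart D t⁻¹ → Branch D t → Branch D t⁻¹ → Arch D →
    ∀ (p : ℕ) (w π' : K) (u f : F), p.Prime → w ^ (p - 1) = -(p : K) →
      w ∈ D.A → D.ra w = 0 → π' ≠ 0 → π' ∈ D.A → D.ra π' = 0 → f ∈ D.O →
      u = 1 + algebraMap K F (w ^ p * π') * f →
      LocPow K t u p → LocPow K t⁻¹ u p → ∃ y : F, y ^ p = u

/-- DEEP-10 = local part of **Theorem D''** (any fibre for which `Bbar` is closed under `p`-th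
roots).  `s` is a ring automorphism of `F` preserving `O`, `B`, acting trivially on the reduction,
`s w = a' w` with `a' ≡ a`.  Then `U = s u / u ^ a` has a deep section on the chart `t`. -/
def Stmt_Twist : Prop :=
  ∀ (K F E : Type) [Field K] [Field F] [Algebra K F] [CommRing E] [Nontrivial E] (D : ND K F E)
    (t u : F) (p : ℕ) (w π' π'' a' : K) (a : ℕ) (s : F ≃+* F),
    IsW D p w → D.Sm π' → D.Cg (w ^ p * π') u 1 → D.Sm π'' → D.Cg (w ^ p * π'') (s u) 1 →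
    D.Arch → BA D t → Cl1 D t p →
    (∀ x ∈ D.O, s x ∈ D.O ∧ D.rd (s x) = D.rd x) → (∀ x : F, IsInt K t x → IsInt K t (s x)) →
    a' ∈ D.A → D.rd (algebraMap K F a') = (a : E) →
    s (algebraMap K F w) = algebraMap K F (a' * w) →
    (∃ x ∈ D.O, D.rd x = 1 ∧ IsInt K t (x ^ p * u)) →
    (∃ x ∈ D.O, D.rd x = 1 ∧ IsInt K t (x ^ p * u⁻¹)) →
    ∃ (π : K) (X : F), D.Sm π ∧ DeepSec D t (s u * (u ^ a)⁻¹) p w π X

end Fermat.Agent.INJ.Deep
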