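/-
INJ / Deep, package DEEP-7 (helper75): best approximation from the orthonormal basis (`Stmt_BARed`).

`Q(t) x ∈ B` for a nonzero `Q`; `Q = c Q1 q0` with `Q1 ∈ A[X]` monic, `q0 ∈ A[X]` of reduction `1`
(`D7_factor`); `Q1(t) q0(t) x = ∑ P_i(t) b_i`, `P_i ∈ A[X]`; divide by `Q1` in `A[X]`; normalise the
remainder `v = ∑ R_i(t) b_i` by a constant (`unram`); degrees show that `rd (v a / Q1(t)) ∉ Bbar`.
-/
import Fermat.Agent.INJ.Deep.Interface
import Fermat.Agent.INJ.All

set_option autoImplicit false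

namespace Fermat.Agent.INJ.Deep

open Polynomial IntermediateField

section D7

variable {K F k Fb : Type} [Field K] [Field F] [Algebra K F] [Field k] [Field Fb] [Algebra k Fb]

/-- "Weierstrass preparation" over an algebraically closed valued field: every nonzero polynomial is
a constant times a monic polynomial of `A[X]` times a polynomial of `A[X]` with reduction `1`. -/
theorem D7_factor [IsAlgClosed K] (D : RedData K F k Fb) (Q : K[X]) (hQ : Q ≠ 0) :
    ∃ (c : K) (Q1 q0 : (D.A)[X]), c ≠ 0 ∧ Q1.Monic ∧ q0.map D.rA = 1 ∧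
      Q = C c * Q1.map D.A.subtype * q0.map D.A.subtype := by
  induction hn : Q.natDegree generalizing Q with
  | zero =>
    obtain ⟨c, rfl⟩ := natDegree_eq_zero.1 hn
    refine ⟨c, 1, 1, fun h => hQ (by rw [h, C_0]), monic_one, by simp, by simp⟩
  | succ n ih =>
    have hdeg : Q.degree ≠ 0 := by
      intro h
      have h' : Q.natDegree = 0 := natDegree_eq_of_degree_eq_some h
      omega
    obtain ⟨α, hα⟩ := IsAlgClosed.exists_root Q hdeg
    have hfac : (X - C α) * (Q /ₘ (X - C α)) = Q := mul_divByMonic_eq_iff_isRoot.2 hα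
    set Q' := Q /ₘ (X - C α) with hQ'
    have hQ'0 : Q' ≠ 0 := by
      intro h
      rw [h, mul_zero] at hfac
      exact hQ hfac.symm
    have hn' : Q'.natDegree = n := by
      have := congrArg natDegree hfac
      rw [natDegree_mul (X_sub_C_ne_zero α) hQ'0, natDegree_X_sub_C, hn] at this
      omega
    obtain ⟨c, Q1, q0, hc, hQ1, hq0, hQQ⟩ := ih Q' hQ'0 hn'
    by_cases hαA : α ∈ D.A
    · refine ⟨c, (X - C ⟨α, hαA⟩) * Q1, q0, hc, (monic_X_sub_C _).mul hQ1, hq0, ?_⟩
      rw [← hfac, hQQ, Polynomial.map_mul, Polynomial.map_sub, Polynomial.map_X, Polynomial.map_C]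
      have : D.A.subtype ⟨α, hαA⟩ = α := rfl
      rw [this]
      ring
    · have hα0 : α ≠ 0 := fun h => hαA (h ▸ D.A.zero_mem)
      have hinv : α⁻¹ ∈ D.A := (D.A.mem_or_inv_mem α).resolve_left hαA
      have hra : D.rA ⟨α⁻¹, hinv⟩ = 0 := by
        have := ra_eq_zero_of_inv_not_mem D hinv (by rwa [inv_inv])
        rwa [RedData.ra_of_mem hinv] at this
      refine ⟨-α * c, Q1, (1 - C ⟨α⁻¹, hinv⟩ * X) * q0, mul_ne_zero (neg_ne_zero.2 hα0) hc, hQ1,
        ?_, ?_⟩
      · rw [Polynomial.map_mul, hq0, Polynomial.map_sub, Polynomial.map_mul, Polynomial.map_C, hra]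
        simp
      · rw [← hfac, hQQ, Polynomial.map_mul, Polynomial.map_sub, Polynomial.map_mul,
          Polynomial.map_X, Polynomial.map_C, Polynomial.map_one]
        have h1 : D.A.subtype ⟨α⁻¹, hinv⟩ = α⁻¹ := rfl
        rw [h1]
        have h2 : (X - C α : K[X]) = C (-α) * (1 - C α⁻¹ * X) := by
          rw [mul_sub, mul_one, ← mul_assoc, ← C_mul, neg_mul, mul_inv_cancel₀ hα0]
          simp
          ring
        rw [h2, C_mul]
        ring

/-- best approximation, in terms of `RedData`. -/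
theorem D7_main [IsAlgClosed K] [CharZero K] (D : RedData K F k Fb) (t : F) (hC : Chart D t)
    (x : F) (hx : x ∈ D.O) :
    ∃ q b : F, q ∈ D.O ∧ IsInt K t q ∧ D.rd q = 1 ∧ b ∈ D.O ∧ IsInt K t b ∧
      (q * x = b ∨ ∃ (a : K) (y : F), a ≠ 0 ∧ y ∈ D.O ∧ q * x = b + algebraMap K F a * y ∧
        ¬ ∃ β ∈ D.O, IsInt K t β ∧ D.rd β = D.rd y) := by
  have ht := hC.t_mem
  have htr := hC.trans
  have hfin := hC.fin
  obtain ⟨b, hb, hbs, hbli⟩ := all_BBasis K F k Fb D t hC
  have hbO : ∀ i, b i ∈ D.O := fun i => (hb i).1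
  have hbI : ∀ i, IsInt K t (b i) := fun i => (hb i).2
  obtain ⟨Q, hQ, hQx⟩ := P8_exists_den stmt_Gauss D t ht htr x
  have hQ0 : Q.map D.A.subtype ≠ 0 := by
    intro h
    apply hQ
    have : Q = 0 := Polynomial.map_injective _ Subtype.val_injective
      (by rw [h, Polynomial.map_zero])
    rw [this, Polynomial.map_zero]
  obtain ⟨c, Q1, q0, hc, hQ1, hq0, hfac⟩ := D7_factor D _ hQ0
  set q : F := aeval t (q0.map D.A.subtype) with hq
  set s : F := aeval t (Q1.map D.A.subtype) with hs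
  have hqO : q ∈ D.O := (P1_red ht q0).1
  have hqr : D.rd q = 1 := by rw [hq, (P1_red ht q0).2, hq0, map_one]
  have hsO : s ∈ D.O := (P1_red ht Q1).1
  have hQ1b : Q1.map D.rA ≠ 0 := (hQ1.map D.rA).ne_zero
  have hsr : D.rd s ≠ 0 := P1_rd_ne_zero ht htr Q1 hQ1b
  have hs0 : s ≠ 0 := by
    intro h
    rw [h] at hsr
    exact hsr RedData.rd_zero
  have hc' : algebraMap K F c ≠ 0 := (_root_.map_ne_zero _).2 hc
  have hz : s * (q * x) = algebraMap K F c⁻¹ * (aeval t (Q.map D.A.subtype) * x) := by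
    rw [hfac, map_mul, map_mul, aeval_C, map_inv₀, ← hq, ← hs]
    field_simp
  have hzI : IsInt K t (s * (q * x)) := by
    rw [hz]
    exact IsIntegral.mul (isInt_algebraMap t _) hQx
  have hzO : s * (q * x) ∈ D.O := mul_mem hsO (mul_mem hqO hx)
  obtain ⟨P, hP⟩ := (P8_mem_span_iff t b _).1 (hbs _ hzI)
  obtain ⟨P', hP', -⟩ := P8_coord stmt_Gauss all_Ortho D t ht htr b hbO hbli P (hP ▸ hzO)
  -- division by the monic polynomial `Q1`
  have hdiv : ∀ i, P' i %ₘ Q1 + Q1 * (P' i /ₘ Q1) = P' i := fun i => modByMonic_add_div (P' i) Q1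
  set b' : F := ∑ i, aeval t ((P' i /ₘ Q1).map D.A.subtype) * b i with hb'
  set v : F := ∑ i, aeval t ((P' i %ₘ Q1).map D.A.subtype) * b i with hv
  have hb'O : b' ∈ D.O := RedData.sum_mem _ _ fun i _ => mul_mem (P1_red ht _).1 (hbO i)
  have hb'I : IsInt K t b' :=
    P8_isInt_sum _ _ _ fun i _ => IsIntegral.mul (P8_isInt_aeval t _) (hbI i)
  have hvO : v ∈ D.O := RedData.sum_mem _ _ fun i _ => mul_mem (P1_red ht _).1 (hbO i)
  have hrel : s * (q * x) = s * b' + v := by
    rw [hP, hb', hv, Finset.mul_sum, ← Finset.sum_add_distrib]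
    refine Finset.sum_congr rfl fun i _ => ?_
    rw [← hP' i]
    conv_lhs => rw [← hdiv i]
    rw [Polynomial.map_add, Polynomial.map_mul, map_add, map_mul]
    ring
  refine ⟨q, b', hqO, P8_isInt_aeval t _, hqr, hb'O, hb'I, ?_⟩
  by_cases hv0 : v = 0
  · left
    rw [hv0, add_zero] at hrel
    exact mul_left_cancel₀ hs0 hrel
  right
  obtain ⟨a', ha', h1, h2⟩ := D.unram v hv0
  have ha'F : algebraMap K F a' ≠ 0 := (_root_.map_ne_zero _).2 ha'
  have hva : v * algebraMap K F a'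
      = ∑ i, aeval t (C a' * (P' i %ₘ Q1).map D.A.subtype) * b i := by
    rw [hv, Finset.sum_mul]
    refine Finset.sum_congr rfl fun i _ => ?_
    rw [map_mul, aeval_C]
    ring
  obtain ⟨R', hR', hR'rd⟩ := P8_coord stmt_Gauss all_Ortho D t ht htr b hbO hbli
    (fun i => C a' * (P' i %ₘ Q1).map D.A.subtype) (hva ▸ h1)
  rw [← hva] at hR'rd
  have hunit : D.rd (v * algebraMap K F a') ≠ 0 :=
    RedData.rd_ne_zero_of_inv_mem (mul_ne_zero hv0 ha'F) h1 h2
  refine ⟨a'⁻¹, v * algebraMap K F a' / s, inv_ne_zero ha', RedData.div_mem h1 hsr, ?_, ?_⟩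
  · have h3 : q * x = b' + v / s := by
      field_simp
      linear_combination hrel
    rw [h3, map_inv₀]
    field_simp
  · rintro ⟨β, hβO, hβI, hβ⟩
    obtain ⟨H, hH⟩ := (P8_mem_span_iff t b _).1 (hbs _ hβI)
    obtain ⟨H', -, hH'rd⟩ := P8_coord stmt_Gauss all_Ortho D t ht htr b hbO hbli H (hH ▸ hβO)
    rw [← hH] at hH'rd
    rw [RedData.rd_div h1 hsr, eq_div_iff hsr, hH'rd, hR'rd, hs, (P1_red ht Q1).2,
      Finset.sum_mul] at hβ
    have hsum : ∑ i, (⟨aeval (D.rd t) ((H' i).map D.rA * Q1.map D.rA - (R' i).map D.rA),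
        P8_aeval_mem_field _ _⟩ : k⟮D.rd t⟯) • D.rd (b i) = 0 := by
      have : ∀ i, (⟨aeval (D.rd t) ((H' i).map D.rA * Q1.map D.rA - (R' i).map D.rA),
          P8_aeval_mem_field _ _⟩ : k⟮D.rd t⟯) • D.rd (b i)
          = aeval (D.rd t) ((H' i).map D.rA) * D.rd (b i) * aeval (D.rd t) (Q1.map D.rA)
            - aeval (D.rd t) ((R' i).map D.rA) * D.rd (b i) := by
        intro i
        rw [IntermediateField.smul_def, smul_eq_mul]
        show aeval (D.rd t) ((H' i).map D.rA * Q1.map D.rA - (R' i).map D.rA) * D.rd (b i) = _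
        rw [map_sub, map_mul]
        ring
      simp only [this]
      rw [Finset.sum_sub_distrib, hβ, sub_self]
    have hzero : ∀ i, (R' i).map D.rA = 0 := by
      intro i
      have h4 := Fintype.linearIndependent_iff.1 hbli _ hsum i
      have h5 : aeval (D.rd t) ((H' i).map D.rA * Q1.map D.rA - (R' i).map D.rA) = 0 :=
        congrArg Subtype.val h4
      have h6 := sub_eq_zero.1 (transcendental_iff.1 htr _ h5)
      refine eq_zero_of_dvd_of_degree_lt (Dvd.intro_left _ h6) ?_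
      calc ((R' i).map D.rA).degree ≤ (R' i).degree := degree_map_le
        _ = ((R' i).map D.A.subtype).degree :=
            (degree_map_eq_of_injective Subtype.val_injective _).symm
        _ = ((P' i %ₘ Q1).map D.A.subtype).degree := by rw [hR' i, degree_C_mul ha']
        _ = (P' i %ₘ Q1).degree := degree_map_eq_of_injective Subtype.val_injective _
        _ < Q1.degree := degree_modByMonic_lt _ hQ1
        _ = (Q1.map D.rA).degree := (hQ1.degree_map D.rA).symm
    apply hunit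
    rw [hR'rd]
    refine Finset.sum_eq_zero fun i _ => ?_
    rw [hzero i, map_zero, zero_mul]

end D7

/-- DEEP-7 (best approximation for one Gauss valuation). -/
theorem stmt_BARed : Stmt_BARed := by
  intro K F k Fb _ _ _ _ _ _ _ _ D w₀ h₀ t hC x hx
  obtain ⟨q, b, hq, hqI, hqr, hb, hbI, h⟩ := D7_main D t hC x hx
  refine ⟨q, b, hq, hqI, by rw [ofRed_rd]; exact hqr, hb, hbI, ?_⟩
  rcases h with h | ⟨a, y, ha, hy, hxy, hn⟩
  · exact Or.inl h
  · refine Or.inr ⟨a, y, ha, hy, hxy, ?_⟩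
    rintro ⟨β, hβ, hβI, hβr⟩
    rw [ofRed_rd, ofRed_rd] at hβr
    exact hn ⟨β, hβ, hβI, hβr⟩

end Fermat.Agent.INJ.Deep
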