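import Fermat.Agent.INJ.Deep.Defs
import Fermat.Agent.BR.Inv.Defs

/-!
# INJ / Deep : every `BR.Inv.SData` (sup-norm reduction data) is an `ND`
-/

set_option autoImplicit false

namespace Fermat.Agent.INJ.Deep

open Fermat.Agent.BR.Inv (SData SArch)

variable {K F k E : Type*} [Field K] [Field F] [Algebra K F] [Field k] [CommRing E] [Algebra k E]

theorem sra_eq_zero_of_inv_not_mem (S : SData K F k E) {a : K} (ha' : a⁻¹ ∉ S.A) : S.ra a = 0 := by
  by_contra h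
  exact ha' (SData.inv_mem_of_ra_ne_zero h)

/-- the `ND` attached to an `SData`; `w₀` is any nonzero element of `𝔪_A`. -/
noncomputable def ofS (S : SData K F k E) (w₀ : K) (h₀ : w₀ ∈ S.A ∧ w₀⁻¹ ∉ S.A) : ND K F E where
  A := S.A
  O := S.O
  rO := S.rO
  alg_mem := fun _ ha => SData.algebraMap_mem ha
  small := by
    intro a y ha ha' hy h
    have h1 : S.rd (algebraMap K F a * y) = 0 := by
      rw [SData.rd_mul (SData.algebraMap_mem ha) hy, SData.rd_algebraMap ha,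
        sra_eq_zero_of_inv_not_mem S ha', map_zero, zero_mul]
    rw [SData.rd_of_mem h] at h1
    exact h1
  ker := by
    rintro ⟨x, hx⟩ h
    have hrd : S.rd x = 0 := by rw [SData.rd_of_mem hx]; exact h
    by_cases hx0 : x = 0
    · exact ⟨w₀, 0, h₀.1, h₀.2, S.O.zero_mem, by simp [hx0]⟩
    obtain ⟨π, hπ0, hπA, hπr, h1, -⟩ := SData.exists_small hx0 hx hrd
    have hπF : algebraMap K F π ≠ 0 := (_root_.map_ne_zero _).2 hπ0
    refine ⟨π, x * (algebraMap K F π)⁻¹, hπA, ?_, h1, ?_⟩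
    · intro h'
      exact SData.ra_ne_zero_of_inv_mem hπ0 hπA h' hπr
    · show x = algebraMap K F π * (x * (algebraMap K F π)⁻¹)
      field_simp
  unit := by
    rintro ⟨x, hx⟩ h
    exact S.unit x hx (by rw [h]; exact isUnit_one)

variable (S : SData K F k E) (w₀ : K) (h₀ : w₀ ∈ S.A ∧ w₀⁻¹ ∉ S.A)

@[simp] theorem ofS_A : (ofS S w₀ h₀).A = S.A := rfl

theorem mem_ofS_O {x : F} : x ∈ (ofS S w₀ h₀).O ↔ x ∈ S.O := Iff.rfl

theorem ofS_rd (x : F) : (ofS S w₀ h₀).rd x = S.rd x := by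
  by_cases hx : x ∈ S.O
  · rw [SData.rd_of_mem hx, ND.rd_of_mem ((mem_ofS_O S w₀ h₀).2 hx)]; rfl
  · rw [SData.rd_of_not_mem hx, ND.rd_of_not_mem (fun h => hx ((mem_ofS_O S w₀ h₀).1 h))]

theorem ofS_sm_iff {a : K} : (ofS S w₀ h₀).Sm a ↔ a ∈ S.A ∧ a⁻¹ ∉ S.A := Iff.rfl

theorem ofS_sm_of_ra {a : K} (ha0 : a ≠ 0) (ha : a ∈ S.A) (h : S.ra a = 0) :
    (ofS S w₀ h₀).Sm a :=
  ⟨ha, fun h' => SData.ra_ne_zero_of_inv_mem ha0 ha h' h⟩

theorem ofS_arch (h : SArch S) : (ofS S w₀ h₀).Arch := by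
  intro π hπ a ha
  exact h π hπ.1 (sra_eq_zero_of_inv_not_mem S hπ.2) a ha

end Fermat.Agent.INJ.Deep
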