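import Fermat.Agent.INJ.Deep.Interface
import Fermat.Agent.INJ.Deep.SAdapter
import Fermat.Agent.BR.Inv.Interface

/-!
# INJ / Deep : Theorem D'' on the semi-local reduction data of BR / Inv (statements)

Residue characteristic `p` = exponent, special fibre seminormal (`SN`), e.g. two components crossing
at nodes.  `s` a semilinear automorphism acting trivially on the reduction, `s w = a' w`, `a' ≡ a`.
Then `s u / u ^ a` is a `p`-th power for every "deep" `u` (`u ≡ 1 mod w ^ p π' O`).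
-/

set_option autoImplicit false

namespace Fermat.Agent.INJ.Deep

open Polynomial IntermediateField
open Fermat.Agent.BR.Inv (SData SChart SN SArch SEndo AlgSetting Sp IsIntE)

/-- DEEP-15a (pure algebra).  In characteristic `p` the seminormal ring `Bb` is closed under
`p`-th roots. -/
def Stmt_Cl1Alg : Prop :=
  ∀ (k E : Type) [Field k] [IsAlgClosed k] [CommRing E] [Nontrivial E] [Algebra k E] (τ : E)
    (n : ℕ) (b : Fin n → E) (d : k[X]), AlgSetting k τ b d →
    ∀ p : ℕ, p.Prime → (p : k) = 0 → ∀ f : E, f ^ p ∈ Sp k τ b → f ∈ Sp k τ b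

/-- DEEP-15b. -/
def Stmt_Cl1S : Prop :=
  ∀ (K F k E : Type) [Field K] [Field F] [Algebra K F] [Field k] [CommRing E] [Algebra k E]
    [IsAlgClosed K] [CharZero K] [IsAlgClosed k] (S : SData K F k E) (w₀ : K)
    (h₀ : w₀ ∈ S.A ∧ w₀⁻¹ ∉ S.A) (t : F), SChart S t → SN S t →
    ∀ p : ℕ, p.Prime → (p : k) = 0 → Cl1 (ofS S w₀ h₀) t p

/-- DEEP-16 (best approximation for the sup-norm). -/
def Stmt_BAS : Prop :=
  ∀ (K F k E : Type) [Field K] [Field F] [Algebra K F] [Field k] [CommRing E] [Algebra k E]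
    [IsAlgClosed K] [CharZero K] (S : SData K F k E) (w₀ : K) (h₀ : w₀ ∈ S.A ∧ w₀⁻¹ ∉ S.A)
    (t : F), SChart S t → SN S t → BA (ofS S w₀ h₀) t

/-- DEEP-17 (the reductions of `M(u)`, `M(u⁻¹)` are trivial when the exponent is the residue
characteristic). -/
def Stmt_TrivPS : Prop :=
  ∀ (K F k E : Type) [Field K] [Field F] [Algebra K F] [Field k] [CommRing E] [Algebra k E]
    [IsAlgClosed K] [CharZero K] [IsAlgClosed k] (S : SData K F k E) (t : F),
    SChart S t → SN S t → ∀ (p : ℕ) (u : F), p.Prime → (p : k) = 0 → S.rd u = 1 →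
      LocPow K t u p →
      (∃ x ∈ S.O, S.rd x = 1 ∧ IsInt K t (x ^ p * u)) ∧
      (∃ x ∈ S.O, S.rd x = 1 ∧ IsInt K t (x ^ p * u⁻¹))

/-- DEEP-18 = **Theorem D''** (abstract form). -/
def Stmt_DeepS : Prop :=
  ∀ (K F k E : Type) [Field K] [Field F] [Algebra K F] [Field k] [CommRing E] [Algebra k E]
    [IsAlgClosed K] [CharZero K] [IsAlgClosed k] (S : SData K F k E) (t : F),
    SChart S t → SN S t → SN S t⁻¹ → SArch S →
    ∀ (p : ℕ) (w π' a' : K) (a : ℕ) (s : F ≃+* F) (u f : F), p.Prime → w ^ (p - 1) = -(p : K) →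
      w ∈ S.A → S.ra w = 0 → π' ≠ 0 → π' ∈ S.A → S.ra π' = 0 → f ∈ S.O →
      u = 1 + algebraMap K F (w ^ p * π') * f →
      SEndo S t (s : F →+* F) (RingHom.id E) →
      a' ∈ S.A → S.ra a' = (a : k) → s (algebraMap K F w) = algebraMap K F (a' * w) →
      LocPow K t u p → LocPow K t⁻¹ u p →
      ∃ y : F, y ^ p = s u * (u ^ a)⁻¹

end Fermat.Agent.INJ.Deep
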