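/-
INJ / Deep, package DEEP-16 (helper17): best approximation for the sup-norm (`Stmt_BAS`),
port of `BARed.lean` (helper75) to `BR.Inv.SData`.
-/
import Fermat.Agent.INJ.Deep.SInterface
import Fermat.Agent.INJ.Deep.BARed
import Fermat.Agent.BR.Inv.S6a

set_option autoImplicit false

namespace Fermat.Agent.INJ.Deep

open Polynomial IntermediateField
open Fermat.Agent.BR.Inv (SData SChart SN AlgSetting Sp IsIntE)

section D16

variable {K F k E : Type} [Field K] [Field F] [Algebra K F] [Field k] [CommRing E] [Algebra k E]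

/-- "Weierstrass preparation" over an algebraically closed valued field (port of `D7_factor`). -/
theorem D16_factor [IsAlgClosed K] (S : SData K F k E) (Q : K[X]) (hQ : Q ≠ 0) :
    ∃ (c : K) (Q1 q0 : (S.A)[X]), c ≠ 0 ∧ Q1.Monic ∧ q0.map S.rA = 1 ∧
      Q = C c * Q1.map S.A.subtype * q0.map S.A.subtype := by
  induction hn : Q.natDegree generalizing Q with
  | zero =>
    obtain ⟨c, rfl⟩ := natDegree_eq_zero.1 hn
    refine ⟨c, 1, 1, fun h => hQ (by rw [h, C_0]), monic_one, by simp, by simp⟩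
  | succ n ih =>
    have hdeg : Q.degree ≠ 0 := by
      intro h
      have h' : Q.natDegree = 0 := natDegree_eq_of_degree_eq_some h
      omega
    obtain ⟨α, hα⟩ := IsAlgClosed.exists_root Q hdeg
    have hfac : (X - C α) * (Q /ₘ (X - C α)) = Q := mul_divByMonic_eq_iff_isRoot.2 hα
    set Q' := Q /ₘ (X - C α) with hQ'
    have hQ'0 : Q' ≠ 0 := by
      intro h
      rw [h, mul_zero] at hfac
      exact hQ hfac.symm
    have hn' : Q'.natDegree = n := by
      have := congrArg natDegree hfac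
      rw [natDegree_mul (X_sub_C_ne_zero α) hQ'0, natDegree_X_sub_C, hn] at this
      omega
    obtain ⟨c, Q1, q0, hc, hQ1, hq0, hQQ⟩ := ih Q' hQ'0 hn'
    by_cases hαA : α ∈ S.A
    · refine ⟨c, (X - C ⟨α, hαA⟩) * Q1, q0, hc, (monic_X_sub_C _).mul hQ1, hq0, ?_⟩
      rw [← hfac, hQQ, Polynomial.map_mul, Polynomial.map_sub, Polynomial.map_X, Polynomial.map_C]
      have : S.A.subtype ⟨α, hαA⟩ = α := rfl
      rw [this]
      ring
    · have hα0 : α ≠ 0 := fun h => hαA (h ▸ S.A.zero_mem)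
      have hinv : α⁻¹ ∈ S.A := (S.A.mem_or_inv_mem α).resolve_left hαA
      have hra : S.rA ⟨α⁻¹, hinv⟩ = 0 := by
        have := sra_eq_zero_of_inv_not_mem S (a := α⁻¹) (by rwa [inv_inv])
        rwa [SData.ra_of_mem hinv] at this
      refine ⟨-α * c, Q1, (1 - C ⟨α⁻¹, hinv⟩ * X) * q0, mul_ne_zero (neg_ne_zero.2 hα0) hc, hQ1,
        ?_, ?_⟩
      · rw [Polynomial.map_mul, hq0, Polynomial.map_sub, Polynomial.map_mul, Polynomial.map_C, hra]
        simp
      · rw [← hfac, hQQ, Polynomial.map_mul, Polynomial.map_sub, Polynomial.map_mul,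
          Polynomial.map_X, Polynomial.map_C, Polynomial.map_one]
        have h1 : S.A.subtype ⟨α⁻¹, hinv⟩ = α⁻¹ := rfl
        rw [h1]
        have h2 : (X - C α : K[X]) = C (-α) * (1 - C α⁻¹ * X) := by
          rw [mul_sub, mul_one, ← mul_assoc, ← C_mul, neg_mul, mul_inv_cancel₀ hα0]
          simp
          ring
        rw [h2, C_mul]
        ring

/-- coordinates of an element of `O` with respect to an orthonormal family are integral, and the
reduction is computed coefficientwise. -/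
theorem D16_coord (h1 : BR.Inv.Stmt_SGauss) (h2 : BR.Inv.Stmt_SOrtho) (S : SData K F k E) (t : F)
    (ht : t ∈ S.O) (hun : ∀ p : k[X], p ≠ 0 → IsUnit (aeval (S.rd t) p)) {n : ℕ} (b : Fin n → F)
    (hbO : ∀ i, b i ∈ S.O)
    (hli : LinearIndependent (Algebra.adjoin k {S.rd t}) (fun i => S.rd (b i)))
    (P : Fin n → K[X]) (hP : ∑ i, aeval t (P i) * b i ∈ S.O) :
    ∃ P' : Fin n → (S.A)[X], (∀ i, (P' i).map S.A.subtype = P i) ∧
      S.rd (∑ i, aeval t (P i) * b i) = ∑ i, aeval (S.rd t) ((P' i).map S.rA) * S.rd (b i) := by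
  obtain ⟨g1, g2, -, -, -, -, -⟩ := h1 K F k E S t ht hun
  have h3 := (h2 K F k E S t ht hun (Fin n) b hbO hli).2
    (fun i => (⟨aeval t (P i), P8_aeval_mem_field t (P i)⟩ : K⟮t⟯)) hP
  choose P' hP' using fun i => g2 (P i) (h3 i)
  refine ⟨P', hP', ?_⟩
  rw [SData.rd_sum _ _ fun i _ => mul_mem (h3 i) (hbO i)]
  refine Finset.sum_congr rfl fun i _ => ?_
  rw [SData.rd_mul (h3 i) (hbO i), ← hP' i, (g1 (P' i)).2]

/-- best approximation, in terms of `SData`. -/
theorem D16_main [IsAlgClosed K] [CharZero K] (h1 : BR.Inv.Stmt_SGauss) (h2 : BR.Inv.Stmt_SOrtho)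
    (h7 : BR.Inv.Stmt_SSetting) (S : SData K F k E) (t : F) (hC : SChart S t) (hSN : SN S t)
    (x : F) (hx : x ∈ S.O) :
    ∃ q b : F, q ∈ S.O ∧ IsInt K t q ∧ S.rd q = 1 ∧ b ∈ S.O ∧ IsInt K t b ∧
      (q * x = b ∨ ∃ (a : K) (y : F), a ≠ 0 ∧ y ∈ S.O ∧ q * x = b + algebraMap K F a * y ∧
        ¬ ∃ β ∈ S.O, IsInt K t β ∧ S.rd β = S.rd y) := by
  have ht := hC.t_mem
  have hun := hC.unit
  have hfin := hC.fin
  have hnt : Nontrivial E := S.nontrivial
  obtain ⟨g1, g2, g3, g4, g5, -, -⟩ := h1 K F k E S t ht hun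
  obtain ⟨b, d, hbO, hbspan, hbli, hAS, hbred, -⟩ := h7 K F k E S t hC hSN
  have hbI : ∀ i, IsInt K t (b i) := fun i => (hbspan _).1 (Submodule.subset_span ⟨i, rfl⟩)
  -- coordinates of `x`
  have htop : Submodule.span K⟮t⟯ (Set.range b) = ⊤ :=
    hbli.span_eq_top_of_card_eq_finrank' (Fintype.card_fin _)
  obtain ⟨c, hc⟩ : ∃ c : Fin (Module.finrank K⟮t⟯ F) → K⟮t⟯, ∑ j, c j • b j = x :=
    (Submodule.mem_span_range_iff_exists_fun K⟮t⟯).1 (htop ▸ Submodule.mem_top)
  have hc' : x = ∑ j, (c j : F) * b j := hc.symm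
  obtain ⟨Q, hQ, hQc⟩ := BR.Inv.S6a_denom S t g3 c
  choose P0 hP0 using hQc
  have hQ0 : Q.map S.A.subtype ≠ 0 := by
    intro h
    apply hQ
    have : Q = 0 := Polynomial.map_injective _ Subtype.val_injective
      (by rw [h, Polynomial.map_zero])
    rw [this, Polynomial.map_zero]
  obtain ⟨c0, Q1, q0, hc0, hQ1, hq0, hfac⟩ := D16_factor S _ hQ0
  set q : F := aeval t (q0.map S.A.subtype) with hq
  set s : F := aeval t (Q1.map S.A.subtype) with hs
  have hqO : q ∈ S.O := (g1 q0).1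
  have hqr : S.rd q = 1 := by rw [hq, (g1 q0).2, hq0, map_one]
  have hsO : s ∈ S.O := (g1 Q1).1
  have hQ1b : Q1.map S.rA ≠ 0 := (hQ1.map S.rA).ne_zero
  have hsrd : S.rd s = aeval (S.rd t) (Q1.map S.rA) := (g1 Q1).2
  have hsr : IsUnit (S.rd s) := by rw [hsrd]; exact hun _ hQ1b
  have hs0 : s ≠ 0 := SData.ne_zero_of_isUnit_rd hsr
  have hc0' : algebraMap K F c0 ≠ 0 := (_root_.map_ne_zero _).2 hc0
  have hz : s * (q * x) = algebraMap K F c0⁻¹ * (aeval t (Q.map S.A.subtype) * x) := by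
    rw [hfac, map_mul, map_mul, aeval_C, map_inv₀, ← hq, ← hs]
    field_simp
  have hzO : s * (q * x) ∈ S.O := mul_mem hsO (mul_mem hqO hx)
  have hP : s * (q * x) = ∑ i, aeval t (C c0⁻¹ * P0 i) * b i := by
    rw [hz]
    conv_lhs => rw [hc']
    rw [Finset.mul_sum, Finset.mul_sum]
    refine Finset.sum_congr rfl fun i _ => ?_
    rw [map_mul, aeval_C, ← hP0 i]
    ring
  obtain ⟨P', hP', -⟩ := D16_coord h1 h2 S t ht hun b hbO hAS.li _ (hP ▸ hzO)
  -- division by the monic polynomial `Q1`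
  have hdiv : ∀ i, P' i %ₘ Q1 + Q1 * (P' i /ₘ Q1) = P' i := fun i => modByMonic_add_div (P' i) Q1
  set b' : F := ∑ i, aeval t ((P' i /ₘ Q1).map S.A.subtype) * b i with hb'
  set v : F := ∑ i, aeval t ((P' i %ₘ Q1).map S.A.subtype) * b i with hv
  have hb'O : b' ∈ S.O := SData.sum_mem _ _ fun i _ => mul_mem (g1 _).1 (hbO i)
  have hb'I : IsInt K t b' :=
    P8_isInt_sum _ _ _ fun i _ => IsIntegral.mul (P8_isInt_aeval t _) (hbI i)
  have hvO : v ∈ S.O := SData.sum_mem _ _ fun i _ => mul_mem (g1 _).1 (hbO i)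
  have hrel : s * (q * x) = s * b' + v := by
    rw [hP, hb', hv, Finset.mul_sum, ← Finset.sum_add_distrib]
    refine Finset.sum_congr rfl fun i _ => ?_
    rw [← hP' i]
    conv_lhs => rw [← hdiv i]
    rw [Polynomial.map_add, Polynomial.map_mul, map_add, map_mul]
    ring
  refine ⟨q, b', hqO, P8_isInt_aeval t _, hqr, hb'O, hb'I, ?_⟩
  by_cases hv0 : v = 0
  · left
    rw [hv0, add_zero] at hrel
    exact mul_left_cancel₀ hs0 hrel
  right
  obtain ⟨a', ha', k1, k2⟩ := SData.exists_norm (S := S) hv0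
  have ha'F : algebraMap K F a' ≠ 0 := (_root_.map_ne_zero _).2 ha'
  have hva : v * algebraMap K F a'
      = ∑ i, aeval t (C a' * (P' i %ₘ Q1).map S.A.subtype) * b i := by
    rw [hv, Finset.sum_mul]
    refine Finset.sum_congr rfl fun i _ => ?_
    rw [map_mul, aeval_C]
    ring
  obtain ⟨R', hR', hR'rd⟩ := D16_coord h1 h2 S t ht hun b hbO hAS.li
    (fun i => C a' * (P' i %ₘ Q1).map S.A.subtype) (hva ▸ k1)
  rw [← hva] at hR'rd
  refine ⟨a'⁻¹, v * algebraMap K F a' / s, inv_ne_zero ha', SData.div_mem k1 hsr, ?_, ?_⟩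
  · have h3 : q * x = b' + v / s := by
      field_simp
      linear_combination hrel
    rw [h3, map_inv₀]
    field_simp
  · rintro ⟨β, hβO, hβI, hβ⟩
    obtain ⟨H, hH⟩ := (BR.Inv.mem_Sp_iff (S.rd t) _ _).1 (hbred β hβO hβI)
    have hmul := SData.rd_div_mul k1 hsr
    rw [← hβ, hH, hR'rd, hsrd, Finset.sum_mul] at hmul
    have hsum : ∑ i, aeval (S.rd t) (H i * Q1.map S.rA - (R' i).map S.rA) * S.rd (b i) = 0 := by
      have : ∀ i, aeval (S.rd t) (H i * Q1.map S.rA - (R' i).map S.rA) * S.rd (b i)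
          = aeval (S.rd t) (H i) * S.rd (b i) * aeval (S.rd t) (Q1.map S.rA)
            - aeval (S.rd t) ((R' i).map S.rA) * S.rd (b i) := by
        intro i
        rw [map_sub, map_mul]
        ring
      simp only [this]
      rw [Finset.sum_sub_distrib, hmul, sub_self]
    have hzero : ∀ i, (R' i).map S.rA = 0 := by
      intro i
      have h4 := congrFun (BR.Inv.li_poly hAS.li hAS.aeval_injective _ hsum) i
      have h6 := sub_eq_zero.1 h4
      refine eq_zero_of_dvd_of_degree_lt (Dvd.intro_left _ h6) ?_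
      calc ((R' i).map S.rA).degree ≤ (R' i).degree := degree_map_le
        _ = ((R' i).map S.A.subtype).degree :=
            (degree_map_eq_of_injective Subtype.val_injective _).symm
        _ = ((P' i %ₘ Q1).map S.A.subtype).degree := by rw [hR' i, degree_C_mul ha']
        _ = (P' i %ₘ Q1).degree := degree_map_eq_of_injective Subtype.val_injective _
        _ < Q1.degree := degree_modByMonic_lt _ hQ1
        _ = (Q1.map S.rA).degree := (hQ1.degree_map S.rA).symm
    apply k2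
    rw [hR'rd]
    refine Finset.sum_eq_zero fun i _ => ?_
    rw [hzero i, map_zero, zero_mul]

end D16

/-- DEEP-16 (best approximation for the sup-norm). -/
theorem stmt_BAS (h1 : BR.Inv.Stmt_SGauss) (h2 : BR.Inv.Stmt_SOrtho) (h7 : BR.Inv.Stmt_SSetting) :
    Stmt_BAS := by
  intro K F k E _ _ _ _ _ _ _ _ S w₀ h₀ t hC hSN x hx
  obtain ⟨q, b, hq, hqI, hqr, hb, hbI, h⟩ := D16_main h1 h2 h7 S t hC hSN x hx
  refine ⟨q, b, hq, hqI, by rw [ofS_rd]; exact hqr, hb, hbI, ?_⟩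
  rcases h with h | ⟨a, y, ha, hy, hxy, hn⟩
  · exact Or.inl h
  · refine Or.inr ⟨a, y, ha, hy, hxy, ?_⟩
    rintro ⟨β, hβ, hβI, hβr⟩
    rw [ofS_rd, ofS_rd] at hβr
    exact hn ⟨β, hβ, hβI, hβr⟩

end Fermat.Agent.INJ.Deep
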