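import Fermat.Agent.INJ.Deep.Interface

/-!
# INJ / Deep, package DEEP-0 : binomial formula for a prime exponent, `x ≡ 1 mod w π ⟹
`x ^ p ≡ 1 mod w ^ p π`
-/

set_option autoImplicit false

namespace Fermat.Agent.INJ.Deep

/-- the binomial formula for a prime exponent in a commutative ring. -/
theorem D0_binom {S : Type*} [CommRing S] (p : ℕ) (hp : p.Prime) (b c : S) :
    ∃ r : S, (b + c) ^ p = b ^ p + (p : S) * (b ^ (p - 1) * c + c ^ 2 * r) + c ^ p := by
  obtain ⟨q, rfl⟩ : ∃ q, p = q + 2 := ⟨p - 2, by have := hp.two_le; omega⟩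
  refine ⟨∑ i ∈ Finset.range q,
    (((q + 2).choose (i + 1) / (q + 2) : ℕ) : S) * b ^ (i + 1) * c ^ (q - 1 - i), ?_⟩
  have hsum : ∑ i ∈ Finset.range q, b ^ (i + 1) * c ^ (q + 2 - (i + 1)) * ((q + 2).choose (i + 1) : S)
      = ((q + 2 : ℕ) : S) * (c ^ 2 * ∑ i ∈ Finset.range q,
        (((q + 2).choose (i + 1) / (q + 2) : ℕ) : S) * b ^ (i + 1) * c ^ (q - 1 - i)) := by
    rw [Finset.mul_sum, Finset.mul_sum]
    refine Finset.sum_congr rfl fun i hi => ?_
    have hi' : i < q := Finset.mem_range.1 hi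
    have hdvd : (q + 2) ∣ (q + 2).choose (i + 1) :=
      hp.dvd_choose_self (Nat.succ_ne_zero i) (by omega)
    have h1 : ((q + 2).choose (i + 1) : S)
        = ((q + 2 : ℕ) : S) * (((q + 2).choose (i + 1) / (q + 2) : ℕ) : S) := by
      rw [← Nat.cast_mul, Nat.mul_div_cancel' hdvd]
    have h2 : q + 2 - (i + 1) = 2 + (q - 1 - i) := by omega
    rw [h1, h2, pow_add]
    ring
  rw [add_pow, Finset.sum_range_succ, Finset.sum_range_succ, Finset.sum_range_succ', hsum]
  have e1 : q + 2 - (q + 1) = 1 := by omega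
  have e2 : q + 2 - 1 = q + 1 := by omega
  have e3 : (q + 2).choose (q + 1) = q + 2 := Nat.choose_succ_self_right (q + 1)
  rw [e1, e2, e3, Nat.sub_self, Nat.sub_zero, Nat.choose_zero_right, Nat.choose_self]
  simp only [pow_zero, pow_one, Nat.cast_one, mul_one, one_mul]
  ring

/-- **DEEP-0a.** -/
theorem stmt_Binom : Stmt_Binom := by
  intro R _ S p hp b hb c hc
  obtain ⟨r, hr⟩ := D0_binom p hp (⟨b, hb⟩ : S) ⟨c, hc⟩
  refine ⟨r.1, r.2, ?_⟩
  have := congrArg S.subtype hr
  simpa using this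

/-- `p w = - w ^ p`. -/
theorem D0_key {K : Type*} [Field K] {p : ℕ} (hp : p.Prime) {w : K} (h : w ^ (p - 1) = -(p : K)) :
    (p : K) * w = - w ^ p := by
  have e : w ^ p = w ^ (p - 1) * w := by
    rw [← pow_succ]
    congr 1
    have := hp.one_le
    omega
  rw [e, h]
  ring

/-- **DEEP-0b.** -/
theorem stmt_PowCg (h : Stmt_Binom) : Stmt_PowCg := by
  intro K F E _ _ _ _ D p w π hW hπ x hx
  obtain ⟨hp, hw, hwp⟩ := hW
  obtain ⟨z, hz, rfl⟩ := hx
  have hWm : algebraMap K F w ∈ D.O := hw.algebraMap_mem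
  have hPm : algebraMap K F π ∈ D.O := D.alg_mem π hπ
  have hc : algebraMap K F (w * π) * z ∈ D.O := by
    rw [map_mul]; exact mul_mem (mul_mem hWm hPm) hz
  obtain ⟨r, hr, e⟩ := h F D.O p hp 1 D.O.one_mem _ hc
  refine ⟨- z - algebraMap K F w * algebraMap K F π * z ^ 2 * r
    + algebraMap K F π ^ (p - 1) * z ^ p, ?_, ?_⟩
  · exact add_mem (sub_mem (neg_mem hz)
      (mul_mem (mul_mem (mul_mem hWm hPm) (pow_mem hz 2)) hr))
      (mul_mem (pow_mem hPm _) (pow_mem hz p))
  · rw [e]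
    have hk : (p : F) * algebraMap K F w = - algebraMap K F w ^ p := by
      have := congrArg (algebraMap K F) (D0_key hp hwp)
      simpa using this
    have hPp : algebraMap K F π ^ p = algebraMap K F π * algebraMap K F π ^ (p - 1) := by
      rw [← pow_succ']
      congr 1
      have := hp.one_le
      omega
    simp only [map_mul, map_pow, one_pow, one_mul, mul_pow]
    generalize algebraMap K F π ^ (p - 1) = P1 at hPp ⊢
    linear_combination (algebraMap K F π * z + algebraMap K F w * algebraMap K F π ^ 2 * z ^ 2 * r)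
      * hk + algebraMap K F w ^ p * z ^ p * hPp

end Fermat.Agent.INJ.Deep
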