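import Fermat.Agent.INJ.Deep.SInterface
import Fermat.Agent.BR.Inv.A5

/-!
# INJ / Deep, package DEEP-15 : a seminormal ring in characteristic `p` is closed under `p`-th roots
-/

set_option autoImplicit false

namespace Fermat.Agent.INJ.Deep

open Polynomial IntermediateField
open Fermat.Agent.BR.Inv (SData SChart SN SArch SEndo AlgSetting Sp IsIntE)
open Fermat.Agent.BR.Inv

/-- interpolation: a polynomial `G` with `G (x ^ p) = x` on a finite set, in characteristic `p`. -/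
theorem D15_interp {k : Type*} [Field k] (p : ℕ) (hp : p.Prime) (hpk : (p : k) = 0)
    (T : Finset k) : ∃ G : k[X], ∀ x ∈ T, G.eval (x ^ p) = x := by
  classical
  have : CharP k p := (CharP.charP_iff_prime_eq_zero hp).mpr hpk
  have : ExpChar k p := ExpChar.prime hp
  have hinj : Set.InjOn (fun x : k => x ^ p) T := fun x _ y _ h => frobenius_inj k p h
  exact ⟨Lagrange.interpolate T (fun x : k => x ^ p) (fun x => x), fun x hx =>
    Lagrange.eval_interpolate_at_node (fun x => x) hinj hx⟩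

theorem stmt_Cl1Alg (h1 : BR.Inv.Stmt_Points) (h3 : BR.Inv.Stmt_OtBasis) : Stmt_Cl1Alg := by
  intro k E _ _ _ _ _ τ n b d H p hp hpk f hfp
  have hf : IsIntE k τ f := IsIntE.of_pow hp.pos (H.isIntE_of_mem hfp)
  -- enlarge `d`
  set D : k[X] := d * X with hD
  have HD : AlgSetting k τ b D := A5_setting_mul H _ X_ne_zero
  have hDdeg : D.natDegree ≠ 0 := by
    rw [hD, natDegree_mul H.d0 X_ne_zero, natDegree_X]
    omega
  obtain ⟨o, -, ho⟩ := h3 k E τ n b d H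
  have : Module.Finite k (A5_Ot k τ ⧸ Ideal.span {A5_u τ D}) := A5_finite o ho D hDdeg
  set I : Ideal (A5_Ot k τ) := Ideal.span {A5_u τ D} with hI
  set π : A5_Ot k τ →ₐ[k] A5_Ot k τ ⧸ I := Ideal.Quotient.mkₐ k I with hπ
  obtain ⟨hfin, hnil, -, -⟩ := h1 k (A5_Ot k τ ⧸ I)
  have := Fintype.ofFinite ((A5_Ot k τ ⧸ I) →ₐ[k] k)
  classical
  let F0 : A5_Ot k τ := ⟨f, hf⟩
  obtain ⟨G, hG⟩ := D15_interp p hp hpk
    (Finset.univ.image fun χ : (A5_Ot k τ ⧸ I) →ₐ[k] k => χ (π F0))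
  let e0 : A5_Ot k τ := F0 - aeval (F0 ^ p) G
  have hχ : ∀ χ : (A5_Ot k τ ⧸ I) →ₐ[k] k, χ (π e0) = 0 := by
    intro χ
    have h2 : χ (π (aeval (F0 ^ p) G)) = G.eval (χ (π F0) ^ p) := by
      rw [← aeval_algHom_apply, ← aeval_algHom_apply, map_pow, map_pow, coe_aeval_eq_eval]
    rw [map_sub, map_sub, h2, hG _ (Finset.mem_image_of_mem _ (Finset.mem_univ χ)), sub_self]
  obtain ⟨N, hN⟩ := hnil (π e0) hχ
  rw [← map_pow] at hN
  obtain ⟨h, hh, hfh⟩ := A5_mem_span (Ideal.Quotient.eq_zero_iff_mem.1 hN)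
  have he : e0.1 ∈ Sp k τ b := HD.rad e0.1 h N e0.2 hh hfh
  have hmem : F0 ^ p ∈ A5_Bb H := hfp
  have hG2 : aeval (F0 ^ p) G ∈ A5_Bb H := by
    have h4 := Subalgebra.aeval_coe (A5_Bb H) ⟨F0 ^ p, hmem⟩ G
    rw [h4]
    exact (aeval (⟨F0 ^ p, hmem⟩ : A5_Bb H) G).2
  have hG3 : (aeval (F0 ^ p) G : A5_Ot k τ).1 ∈ Sp k τ b := hG2
  have hsum : f = e0.1 + (aeval (F0 ^ p) G : A5_Ot k τ).1 := by
    show f = (f - (aeval (F0 ^ p) G : A5_Ot k τ).1) + (aeval (F0 ^ p) G : A5_Ot k τ).1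
    ring
  rw [hsum]
  exact (Sp k τ b).add_mem he hG3

theorem stmt_Cl1S (hA : Stmt_Cl1Alg) (h7 : BR.Inv.Stmt_SSetting) : Stmt_Cl1S := by
  intro K F k E _ _ _ _ _ _ _ _ _ S w₀ h₀ t hC hSN p hp hpk
  obtain ⟨b, d, -, -, -, HAlg, hsub, hlift⟩ := h7 K F k E S t hC hSN
  have := S.nontrivial
  rintro f ⟨x, hxO, hxI, hxf⟩
  rw [ofS_rd] at hxf
  have h1 : f ^ p ∈ Sp k (S.rd t) (fun i => S.rd (b i)) := by
    rw [← hxf]
    exact hsub x hxO hxI
  obtain ⟨y, hyO, hyI, hyf⟩ := hlift f (hA k E (S.rd t) _ _ d HAlg p hp hpk f h1)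
  exact ⟨y, hyO, hyI, by rw [ofS_rd]; exact hyf⟩

end Fermat.Agent.INJ.Deep
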