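import Fermat.Agent.INJ.Deep.Interface
import Fermat.Agent.INJ.P12

/-!
# INJ / Deep, package DEEP-6 : global assembly (`Stmt_Core`)
-/

set_option autoImplicit false

namespace Fermat.Agent.INJ.Deep

open Polynomial IntermediateField

section

variable {K F E : Type*} [Field K] [Field F] [Algebra K F] [CommRing E]

/-- weaken the depth of a deep section. -/
theorem D6_mono {D : ND K F E} {t u : F} {p : ℕ} {w π₁ π : K} {x : F}
    (h : DeepSec D t u p w π₁ x) (hw : w ≠ 0) (hπ : π ≠ 0) (hA : π₁ * π⁻¹ ∈ D.A) :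
    DeepSec D t u p w π x := by
  obtain ⟨h1, h2, h3, h4⟩ := h
  refine ⟨h1, h2, h3.mono (mul_ne_zero hw hπ) ?_, h4.mono (mul_ne_zero (pow_ne_zero _ hw) hπ) ?_⟩
  · have : w * π₁ * (w * π)⁻¹ = π₁ * π⁻¹ := by
      rw [mul_inv]; field_simp
    rw [this]; exact hA
  · have hwp : w ^ p ≠ 0 := pow_ne_zero _ hw
    have : w ^ p * π₁ * (w ^ p * π)⁻¹ = π₁ * π⁻¹ := by
      rw [mul_inv]; field_simp
    rw [this]; exact hA

end

/-- **DEEP-6** (global assembly). -/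
theorem stmt_Core (h4 : Stmt_L4) (h5 : Stmt_L5) : Stmt_Core := by
  intro K F E _ _ _ _ _ _ D t u p w hW hArch hu hBT hCst hS₁ hS₂
  obtain ⟨π₁, x₁, hπ₁, hS₁⟩ := hS₁
  obtain ⟨π₂, x₂, hπ₂, hS₂⟩ := hS₂
  have hp : 0 < p := hW.1.pos
  have hw : D.Sm w := hW.2.1
  obtain ⟨π, hπ, hc1, hc2⟩ := ND.exists_common hπ₁ hπ₂
  have hT₁ := D6_mono hS₁ hw.ne_zero hπ.ne_zero hc1
  have hT₂ := D6_mono hS₂ hw.ne_zero hπ.ne_zero hc2
  obtain ⟨a₀, ha0, haA, hBT⟩ := hBT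
  obtain ⟨n, hn⟩ := hArch π hπ a₀ ha0
  obtain ⟨X, hXO, hXI, hX1, hXN⟩ := h4 K F E D t u p w π hW hπ x₁ hT₁ (n + 1) (Nat.succ_pos n)
  obtain ⟨X', hXO', hXI', hX1', hXN'⟩ :=
    h4 K F E D t⁻¹ u p w π hW hπ x₂ hT₂ (n + 1) (Nat.succ_pos n)
  have hcg := h5 K F E D u p w π (n + 1) hW hπ (Nat.succ_pos n) hu X X' hX1 hX1' hXN hXN'
  have ha : w * π ^ (n + 1) ≠ 0 := mul_ne_zero hw.ne_zero (pow_ne_zero _ hπ.ne_zero)
  have hdiff := (ND.cg_iff ha).1 hcg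
  obtain ⟨μ, μ', hμO, hμI, hμO', hμI', hμ⟩ := hBT X X' (w * π ^ (n + 1)) ha hXO hXI hXO' hXI' hdiff
  have hwπ : D.Sm (w * π) := hw.mul hπ
  have hc0 : π ^ n * a₀⁻¹ ≠ 0 := mul_ne_zero (pow_ne_zero _ hπ.ne_zero) (inv_ne_zero ha0)
  obtain ⟨a1, ha1⟩ : ∃ a1 : K, a1 = π ^ n * a₀⁻¹ * (w * π) := ⟨_, rfl⟩
  have ha1S : D.Sm a1 := by
    rw [ha1]; exact hwπ.mul_left hn hc0
  have hπF : algebraMap K F π ≠ 0 := hπ.algebraMap_ne_zero
  have hwF : algebraMap K F w ≠ 0 := hw.algebraMap_ne_zero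
  have haF : algebraMap K F a₀ ≠ 0 := (_root_.map_ne_zero _).2 ha0
  have hXX : X' - X = algebraMap K F a1 * (μ + μ') := by
    rw [← hμ, ha1]
    simp only [map_mul, map_pow, map_inv₀]
    field_simp
    ring
  obtain ⟨y, hy⟩ : ∃ y, y = X + algebraMap K F a1 * μ := ⟨_, rfl⟩
  have hy' : y = X' + algebraMap K F (-a1) * μ' := by
    rw [hy, map_neg]
    linear_combination -hXX
  have hyI : IsInt K t (y ^ p * u) := by
    rw [hy]; exact P12_M_add hp hXI (P12_M_smul a1 hμI)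
  have hyI' : IsInt K t⁻¹ (y ^ p * u) := by
    rw [hy']; exact P12_M_add hp hXI' (P12_M_smul (-a1) hμI')
  have hy1 : D.rd y = 1 := by
    rw [hy, ND.rd_add hXO (mul_mem ha1S.algebraMap_mem hμO), ND.rd_small ha1S hμO, add_zero,
      hX1.rd_eq hwπ D.O.one_mem, ND.rd_one]
  obtain ⟨c, hc⟩ := hCst (y ^ p * u) hyI hyI'
  obtain ⟨c1, hc1⟩ := IsAlgClosed.exists_pow_nat_eq c hp
  have hy0 : y ≠ 0 := ND.ne_zero_of_rd_eq_one hy1
  refine ⟨algebraMap K F c1 / y, ?_⟩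
  rw [div_pow, ← map_pow, hc1, ← hc]
  field_simp

end Fermat.Agent.INJ.Deep
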