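import Fermat.Agent.INJ.Deep.Interface

/-!
# INJ / Deep, DEEP-1 (helper81): approximation up to level `w` (`Stmt_L1`).
-/

set_option autoImplicit false

namespace Fermat.Agent.INJ.Deep

open Polynomial IntermediateField

section

variable {K F E : Type} [Field K] [Field F] [Algebra K F] [CommRing E] [Nontrivial E]
  {D : ND K F E}

/-- the algebraic identity of case (ii-a). -/
theorem D1_identA (P : ℕ) (Z b y r A0 e0 π0 f0 pF : F)
    (hr : Z = b ^ (P + 1) + pF * (b ^ P * (A0 * y) + (A0 * y) ^ 2 * r) + (A0 * y) ^ (P + 1))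
    (hpF : (e0 * A0) ^ P = -pF) :
    Z * (1 + (e0 * A0) ^ (P + 1) * π0 * f0) - b ^ (P + 1) =
      A0 ^ (P + 1) * (y ^ (P + 1) - e0 ^ P * (b ^ P * y + A0 * y ^ 2 * r)
        + e0 ^ (P + 1) * π0 * (Z * f0)) := by
  linear_combination hr + (A0 * (b ^ P * y + A0 * y ^ 2 * r)) * hpF

/-- the algebraic identity of case (ii-b). -/
theorem D1_identB (P : ℕ) (Z b y r W0 π0 f0 pF : F)
    (hr : Z = b ^ (P + 1) + pF * (b ^ P * (W0 * y) + (W0 * y) ^ 2 * r) + (W0 * y) ^ (P + 1))
    (hpF : W0 ^ P = -pF) :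
    Z * (1 + W0 ^ (P + 1) * π0 * f0) - b ^ (P + 1) =
      W0 ^ (P + 1) * (y ^ (P + 1) - b ^ P * y - W0 * (y ^ 2 * r) + π0 * (Z * f0)) := by
  linear_combination hr + (W0 * (b ^ P * y + W0 * y ^ 2 * r)) * hpF

end

theorem stmt_L1 (h : Stmt_Binom) : Stmt_L1 := by
  intro K F E _ _ _ _ _ D t u p w π' hW hπ' hu hBA hCl x hx hrx hxI
  obtain ⟨hp, hw, hwp⟩ := hW
  obtain ⟨P, rfl⟩ : ∃ P, p = P + 1 := ⟨p - 1, (Nat.succ_pred_eq_of_pos hp.pos).symm⟩
  have hP : 0 < P := by
    have := hp.two_le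
    omega
  rw [Nat.add_sub_cancel] at hwp
  obtain ⟨f0, hf0, hu⟩ := hu
  obtain ⟨q, b, hq, hqI, hrq, hb, hbI, hcase⟩ := hBA x hx
  have hx' : q * x ∈ D.O := mul_mem hq hx
  have hrx' : D.rd (q * x) = 1 := by rw [ND.rd_mul hq hx, hrq, hrx, one_mul]
  have hx'I : IsInt K t ((q * x) ^ (P + 1) * u) := by
    have e : (q * x) ^ (P + 1) * u = q ^ (P + 1) * (x ^ (P + 1) * u) := by ring
    rw [e]
    exact IsIntegral.mul (IsIntegral.pow hqI _) hxI
  have hpF : (algebraMap K F w) ^ P = -(((P + 1 : ℕ) : F)) := by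
    rw [← map_pow, hwp, map_neg, map_natCast]
  rcases hcase with hqb | ⟨a, y, ha, hy, hqxy, hnB⟩
  · -- `q x = b`
    refine ⟨q * x, b, 0, hx', hx'I, hb, hbI, D.O.zero_mem, by rw [hqb]; ring, by rw [← hqb]; exact hrx', ?_⟩
    rw [ND.rd_zero, zero_pow (Nat.succ_ne_zero P), sub_zero]
    exact ND.InB.zero t
  · have ha' : algebraMap K F a ≠ 0 := (_root_.map_ne_zero _).2 ha
    -- (i) `a ∈ A`
    have haA : a ∈ D.A := by
      by_contra hna
      have hinv : a⁻¹ ∈ D.A := (D.A.mem_or_inv_mem a).resolve_left hna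
      have hS : D.Sm a⁻¹ := ⟨hinv, by rwa [inv_inv]⟩
      have e : y = algebraMap K F a⁻¹ * (q * x - b) := by
        rw [hqxy, map_inv₀]
        field_simp
        ring
      apply hnB
      rw [e, ND.rd_small hS (sub_mem hx' hb)]
      exact ND.InB.zero t
    have haO : algebraMap K F a ∈ D.O := D.alg_mem a haA
    by_cases hS : D.Sm (w * a⁻¹)
    · -- (ii-a)
      exfalso
      generalize he : w * a⁻¹ = e at hS
      have hwe : algebraMap K F w = algebraMap K F e * algebraMap K F a := by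
        rw [← map_mul, ← he, inv_mul_cancel_right₀ ha]
      obtain ⟨r, hr, hbin⟩ := h F D.O (P + 1) hp b hb (algebraMap K F a * y) (mul_mem haO hy)
      rw [Nat.add_sub_cancel, ← hqxy] at hbin
      have hid := D1_identA P ((q * x) ^ (P + 1)) b y r (algebraMap K F a) (algebraMap K F e)
        (algebraMap K F π') f0 _ hbin (by rw [← hwe]; exact hpF)
      have hu' : u = 1 + (algebraMap K F e * algebraMap K F a) ^ (P + 1) * algebraMap K F π' * f0 := by
        rw [hu, ← hwe, map_mul, map_pow]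
      rw [← hu'] at hid
      have hs1 : b ^ P * y + algebraMap K F a * y ^ 2 * r ∈ D.O :=
        add_mem (mul_mem (pow_mem hb _) hy) (mul_mem (mul_mem haO (pow_mem hy _)) hr)
      have hs2 : (q * x) ^ (P + 1) * f0 ∈ D.O := mul_mem (pow_mem hx' _) hf0
      have hS1 : D.Sm (e ^ P) := hS.pow hP
      have hS2 : D.Sm (e ^ (P + 1) * π') := (hS.pow (Nat.succ_pos P)).mul hπ'
      set c0 : F := y ^ (P + 1) - algebraMap K F e ^ P * (b ^ P * y + algebraMap K F a * y ^ 2 * r)
        + algebraMap K F e ^ (P + 1) * algebraMap K F π' * ((q * x) ^ (P + 1) * f0) with hc0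
      have hc0' : c0 = y ^ (P + 1) - algebraMap K F (e ^ P) * (b ^ P * y + algebraMap K F a * y ^ 2 * r)
        + algebraMap K F (e ^ (P + 1) * π') * ((q * x) ^ (P + 1) * f0) := by
        rw [hc0, map_mul, map_pow, map_pow]
      have hm1 : algebraMap K F (e ^ P) * (b ^ P * y + algebraMap K F a * y ^ 2 * r) ∈ D.O :=
        mul_mem hS1.algebraMap_mem hs1
      have hm2 : algebraMap K F (e ^ (P + 1) * π') * ((q * x) ^ (P + 1) * f0) ∈ D.O :=
        mul_mem hS2.algebraMap_mem hs2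
      have hc0O : c0 ∈ D.O := by
        rw [hc0']
        exact add_mem (sub_mem (pow_mem hy _) hm1) hm2
      have hc0I : IsInt K t c0 := by
        refine isInt_of_smul (a := a ^ (P + 1)) (pow_ne_zero _ ha) ?_
        rw [map_pow, ← hid]
        exact IsIntegral.sub hx'I (IsIntegral.pow hbI _)
      have hc0r : D.rd c0 = D.rd y ^ (P + 1) := by
        rw [hc0', ND.rd_add (sub_mem (pow_mem hy _) hm1) hm2, ND.rd_sub (pow_mem hy _) hm1,
          ND.rd_small hS1 hs1, ND.rd_small hS2 hs2, ND.rd_pow hy, sub_zero, add_zero]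
      exact hnB (hCl _ ⟨c0, hc0O, hc0I, hc0r⟩)
    · -- (ii-b)
      have hinv : a * w⁻¹ ∈ D.A := by
        have := ND.inv_mem_of_not_sm hS
        rwa [mul_inv, inv_inv, mul_comm] at this
      have hw' : algebraMap K F w ≠ 0 := hw.algebraMap_ne_zero
      have hwO : algebraMap K F w ∈ D.O := hw.algebraMap_mem
      set y' : F := algebraMap K F (a * w⁻¹) * y with hy'
      have hy'O : y' ∈ D.O := mul_mem (D.alg_mem _ hinv) hy
      have hxy' : q * x = b + algebraMap K F w * y' := by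
        rw [hqxy, hy', map_mul, map_inv₀]
        field_simp
      have hrb : D.rd b = 1 := by
        have h1 := hrx'
        rw [hxy', ND.rd_add hb (mul_mem hwO hy'O), ND.rd_small hw hy'O, add_zero] at h1
        exact h1
      obtain ⟨r, hr, hbin⟩ := h F D.O (P + 1) hp b hb (algebraMap K F w * y') (mul_mem hwO hy'O)
      rw [Nat.add_sub_cancel, ← hxy'] at hbin
      have hid := D1_identB P ((q * x) ^ (P + 1)) b y' r (algebraMap K F w)
        (algebraMap K F π') f0 _ hbin hpF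
      have hu' : u = 1 + algebraMap K F w ^ (P + 1) * algebraMap K F π' * f0 := by
        rw [hu, map_mul, map_pow]
      rw [← hu'] at hid
      have hs1 : y' ^ 2 * r ∈ D.O := mul_mem (pow_mem hy'O _) hr
      have hs2 : (q * x) ^ (P + 1) * f0 ∈ D.O := mul_mem (pow_mem hx' _) hf0
      set c0 : F := y' ^ (P + 1) - b ^ P * y' - algebraMap K F w * (y' ^ 2 * r)
        + algebraMap K F π' * ((q * x) ^ (P + 1) * f0) with hc0
      have hm0 : b ^ P * y' ∈ D.O := mul_mem (pow_mem hb _) hy'O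
      have hm1 : algebraMap K F w * (y' ^ 2 * r) ∈ D.O := mul_mem hwO hs1
      have hm2 : algebraMap K F π' * ((q * x) ^ (P + 1) * f0) ∈ D.O :=
        mul_mem hπ'.algebraMap_mem hs2
      have hc0O : c0 ∈ D.O :=
        add_mem (sub_mem (sub_mem (pow_mem hy'O _) hm0) hm1) hm2
      have hc0I : IsInt K t c0 := by
        refine isInt_of_smul (a := w ^ (P + 1)) (pow_ne_zero _ hw.ne_zero) ?_
        rw [map_pow, ← hid]
        exact IsIntegral.sub hx'I (IsIntegral.pow hbI _)
      have hc0r : D.rd c0 = D.rd y' ^ (P + 1) - D.rd y' := by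
        rw [hc0, ND.rd_add (sub_mem (sub_mem (pow_mem hy'O _) hm0) hm1) hm2,
          ND.rd_sub (sub_mem (pow_mem hy'O _) hm0) hm1, ND.rd_sub (pow_mem hy'O _) hm0,
          ND.rd_small hw hs1, ND.rd_small hπ' hs2, ND.rd_pow hy'O, ND.rd_mul (pow_mem hb _) hy'O,
          ND.rd_pow hb, hrb, one_pow, one_mul, sub_zero, add_zero]
      exact ⟨q * x, b, y', hx', hx'I, hb, hbI, hy'O, hxy', hrb, c0, hc0O, hc0I, hc0r⟩

end Fermat.Agent.INJ.Deep
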