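import Fermat.Agent.INJ.Deep.Interface

/-!
# INJ / Deep, DEEP-3 : from level `w` to a deep section (`Stmt_L3`)
-/

set_option autoImplicit false

namespace Fermat.Agent.INJ.Deep

open Polynomial IntermediateField

theorem D3_sum_mem {K F E : Type*} [Field K] [Field F] [Algebra K F] [CommRing E] (D : ND K F E)
    {β : F} (hβ : β ∈ D.O) (n : ℕ) : ∑ j ∈ Finset.range n, β ^ j ∈ D.O :=
  D.O.sum_mem fun j _ => pow_mem hβ j

theorem D3_sum_isInt {K F : Type*} [Field K] [Field F] [Algebra K F] {t β : F}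
    (hβ : IsInt K t β) (n : ℕ) : IsInt K t (∑ j ∈ Finset.range n, β ^ j) :=
  IsIntegral.sum _ fun j _ => IsIntegral.pow hβ j

theorem stmt_L3 (h : Stmt_PowCg) : Stmt_L3 := by
  intro K F E _ _ _ _ _ D t u p w π' hW hπ' hu hArch x b y hx hxI hb hbI hy hxe hrb hyB
  have hw : D.Sm w := hW.2.1
  obtain ⟨c, hc, hcI, hrc⟩ := hyB
  obtain ⟨π1, hπ1, y1, hy1, hye⟩ := ND.exists_cg_of_rd_eq hy hc hrc.symm
  have hWO : algebraMap K F w ∈ D.O := hw.algebraMap_mem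
  obtain ⟨b1, hb1⟩ : ∃ b1, b1 = b + algebraMap K F w * c := ⟨_, rfl⟩
  have hb1O : b1 ∈ D.O := by rw [hb1]; exact add_mem hb (mul_mem hWO hc)
  have hb1I : IsInt K t b1 := by
    rw [hb1]; exact IsIntegral.add hbI (IsIntegral.mul (isInt_algebraMap t w) hcI)
  have hrb1 : D.rd b1 = 1 := by
    rw [hb1, ND.rd_add hb (mul_mem hWO hc), ND.rd_small hw hc, hrb, add_zero]
  obtain ⟨β, hβ⟩ : ∃ β, β = 1 - b1 := ⟨_, rfl⟩
  have hβO : β ∈ D.O := by rw [hβ]; exact sub_mem D.O.one_mem hb1O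
  have hβI : IsInt K t β := by rw [hβ]; exact IsIntegral.sub (isInt_one t) hb1I
  have hrβ : D.rd β = 0 := by rw [hβ, ND.rd_sub D.O.one_mem hb1O, ND.rd_one, hrb1, sub_self]
  obtain ⟨π4, β1, hπ4, hβ1, hβe⟩ := ND.exists_of_rd_eq_zero hβO hrβ
  obtain ⟨π, hπ, hπ'π, hπ1π⟩ := ND.exists_common hπ' hπ1
  have hwπ : D.Sm (w * π) := hw.mul hπ
  obtain ⟨n, hn⟩ := hArch π4 hπ4 (w * π) hwπ.ne_zero
  obtain ⟨s, hs⟩ : ∃ s, s = ∑ j ∈ Finset.range n, β ^ j := ⟨_, rfl⟩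
  have hsO : s ∈ D.O := by rw [hs]; exact D3_sum_mem D hβO n
  have hsI : IsInt K t s := by rw [hs]; exact D3_sum_isInt hβI n
  have hsb1 : s * b1 = 1 - β ^ n := by
    have h1 := geom_sum_mul_neg β n
    have h2 : 1 - β = b1 := by rw [hβ]; ring
    rwa [h2, ← hs] at h1
  have hW0 : algebraMap K F w ≠ 0 := hw.algebraMap_ne_zero
  have hP0 : algebraMap K F π ≠ 0 := hπ.algebraMap_ne_zero
  have hcg : D.Cg (w * π) (s * x) 1 := by
    refine ⟨-(algebraMap K F (π4 ^ n * (w * π)⁻¹) * β1 ^ n)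
      + algebraMap K F (π1 * π⁻¹) * (s * y1), ?_, ?_⟩
    · exact add_mem (neg_mem (mul_mem (D.alg_mem _ hn) (pow_mem hβ1 n)))
        (mul_mem (D.alg_mem _ hπ1π) (mul_mem hsO hy1))
    · have hx' : s * x = 1 - β ^ n + algebraMap K F w * algebraMap K F π1 * (s * y1) := by
        rw [← hsb1, hxe, hye, hb1]; ring
      rw [hx', hβe, mul_pow]
      simp only [map_mul, map_inv₀, map_pow]
      field_simp
      ring
  have hwp0 : w ^ p ≠ 0 := pow_ne_zero _ hw.ne_zero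
  have hwpA : w ^ p ∈ D.A := pow_mem hw.1 p
  have huO : u ∈ D.O := hu.mem (mul_mem hwpA hπ'.1) D.O.one_mem
  have hu' : D.Cg (w ^ p * π) u 1 := by
    refine hu.mono (mul_ne_zero hwp0 hπ.ne_zero) ?_
    have : w ^ p * π' * (w ^ p * π)⁻¹ = π' * π⁻¹ := by
      rw [mul_inv]; field_simp
    rw [this]; exact hπ'π
  have hpow : D.Cg (w ^ p * π) ((s * x) ^ p) 1 := h K F E D p w π hW hπ.1 (s * x) hcg
  refine ⟨π, s * x, hπ, mul_mem hsO hx, ?_, hcg, ?_⟩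
  · have : (s * x) ^ p * u = s ^ p * (x ^ p * u) := by ring
    rw [this]
    exact IsIntegral.mul (IsIntegral.pow hsI p) hxI
  · have := hpow.mul hu' D.O.one_mem huO
    rwa [mul_one] at this

end Fermat.Agent.INJ.Deep
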