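import Fermat.Agent.INJ.Deep.Interface

/-!
# INJ / Deep : DEEP-4, deep Newton iteration on one chart
-/

set_option autoImplicit false

namespace Fermat.Agent.INJ.Deep

open Polynomial IntermediateField

theorem D4_step (h : Stmt_Binom) {K F E : Type} [Field K] [Field F] [Algebra K F] [CommRing E]
    [Nontrivial E] (D : ND K F E) (t u : F) (p : ℕ) (w π : K) (hW : IsW D p w) (hπ : D.Sm π)
    (k : ℕ) (x : F) (hx : x ∈ D.O) (hint : IsInt K t (x ^ p * u)) (hc1 : D.Cg (w * π) x 1)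
    (hc2 : D.Cg (w ^ p * π ^ (k + 1)) (x ^ p * u) 1) :
    ∃ x' : F, x' ∈ D.O ∧ IsInt K t (x' ^ p * u) ∧ D.Cg (w * π) x' 1 ∧
      D.Cg (w ^ p * π ^ (k + 1 + 1)) (x' ^ p * u) 1 := by
  obtain ⟨hp, hw, hwp⟩ := hW
  obtain ⟨q, rfl⟩ : ∃ q, p = q + 2 := ⟨p - 2, by have := hp.two_le; omega⟩
  obtain ⟨W, hWdef⟩ : ∃ W, W = algebraMap K F w := ⟨_, rfl⟩
  obtain ⟨P, hPdef⟩ : ∃ P, P = algebraMap K F π := ⟨_, rfl⟩
  obtain ⟨N, hNdef⟩ : ∃ N : F, N = ((q + 2 : ℕ) : F) := ⟨_, rfl⟩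
  have hWO : W ∈ D.O := hWdef ▸ hw.algebraMap_mem
  have hPO : P ∈ D.O := hPdef ▸ hπ.algebraMap_mem
  have hpW : N * W = -W ^ (q + 2) := by
    have h1 : w ^ (q + 1) = -((q + 2 : ℕ) : K) := by simpa using hwp
    have h2 := congrArg (algebraMap K F) h1
    rw [map_pow, map_neg, map_natCast, ← hWdef, ← hNdef] at h2
    rw [pow_succ, h2]
    ring
  obtain ⟨f, hf, hfe⟩ := hc2
  rw [map_mul, map_pow, map_pow, ← hWdef, ← hPdef] at hfe
  obtain ⟨e, he, hxe⟩ := hc1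
  rw [map_mul, ← hWdef, ← hPdef] at hxe
  have hfint : IsInt K t f := by
    refine isInt_of_smul (a := w ^ (q + 2) * π ^ (k + 1))
      (mul_ne_zero (pow_ne_zero _ hw.ne_zero) (pow_ne_zero _ hπ.ne_zero)) ?_
    rw [map_mul, map_pow, map_pow, ← hWdef, ← hPdef]
    have : W ^ (q + 2) * P ^ (k + 1) * f = x ^ (q + 2) * u - 1 := by rw [hfe]; ring
    rw [this]
    exact IsIntegral.sub hint isIntegral_one
  have hWint : IsInt K t W := hWdef ▸ isInt_algebraMap t w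
  have hPint : IsInt K t P := hPdef ▸ isInt_algebraMap t π
  obtain ⟨c, hcdef⟩ : ∃ c, c = W * P ^ (k + 1) * f := ⟨_, rfl⟩
  have hcO : c ∈ D.O := by rw [hcdef]; exact mul_mem (mul_mem hWO (pow_mem hPO _)) hf
  have hcint : IsInt K t c := by
    rw [hcdef]; exact IsIntegral.mul (IsIntegral.mul hWint (IsIntegral.pow hPint _)) hfint
  obtain ⟨r, hr, hbin⟩ := h F D.O (q + 2) hp 1 D.O.one_mem c hcO
  rw [one_pow, one_pow, one_mul, ← hNdef] at hbin
  have e1 : ((1 + c) * x) ^ (q + 2) * u = (1 + c) ^ (q + 2) * (x ^ (q + 2) * u) := by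
    rw [mul_pow]; ring
  refine ⟨(1 + c) * x, mul_mem (add_mem D.O.one_mem hcO) hx, ?_, ?_, ?_⟩
  · rw [e1]
    exact IsIntegral.mul (IsIntegral.pow (IsIntegral.add isIntegral_one hcint) _) hint
  · refine ⟨e + P ^ k * f * x, add_mem he (mul_mem (mul_mem (pow_mem hPO _) hf) hx), ?_⟩
    rw [map_mul, ← hWdef, ← hPdef, hcdef]
    linear_combination hxe
  · refine ⟨-W ^ (q + 2) * P ^ k * f ^ 2 +
      (-W * P ^ k * f ^ 2 * r + P ^ (q * k + q + k) * f ^ (q + 2)) *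
        (1 + W ^ (q + 2) * P ^ (k + 1) * f), ?_, ?_⟩
    · refine add_mem (mul_mem (mul_mem (neg_mem (pow_mem hWO _)) (pow_mem hPO _)) (pow_mem hf _))
        (mul_mem (add_mem (mul_mem (mul_mem (mul_mem (neg_mem hWO) (pow_mem hPO _)) (pow_mem hf _))
          hr) (mul_mem (pow_mem hPO _) (pow_mem hf _)))
          (add_mem D.O.one_mem (mul_mem (mul_mem (pow_mem hWO _) (pow_mem hPO _)) hf)))
    · rw [map_mul, map_pow, map_pow, ← hWdef, ← hPdef, e1, hbin, hfe, hcdef]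
      linear_combination ((P ^ (k + 1) * f + W * P ^ (2 * k + 2) * f ^ 2 * r) *
        (1 + W ^ (q + 2) * P ^ (k + 1) * f)) * hpW

theorem stmt_L4 (h : Stmt_Binom) : Stmt_L4 := by
  intro K F E _ _ _ _ _ D t u p w π hW hπ x hx n hn
  obtain ⟨hxO, hint, hc1, hc2⟩ := hx
  obtain ⟨n, rfl⟩ : ∃ n', n = n' + 1 := ⟨n - 1, by omega⟩
  clear hn
  induction n with
  | zero => exact ⟨x, hxO, hint, hc1, by simpa using hc2⟩
  | succ n ih =>
    obtain ⟨y, hy, hyint, hy1, hy2⟩ := ih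
    exact D4_step h D t u p w π hW hπ n y hy hyint hy1 hy2

end Fermat.Agent.INJ.Deep
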