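import Fermat.Agent.INJ.Deep.Interface

/-!
# INJ / Deep, DEEP-5 : two deep sections are close (`Stmt_L5`)
-/

set_option autoImplicit false

namespace Fermat.Agent.INJ.Deep

open Polynomial IntermediateField

/-- DEEP-5. -/
theorem stmt_L5 (h : Stmt_Binom) : Stmt_L5 := by
  intro K F E _ _ _ _ _ D u p w π n hW hπ hn hu x₁ x₂ h₁ h₂ g₁ g₂
  obtain ⟨hp, hw, hwp⟩ := hW
  obtain ⟨η₁, hη₁, e₁⟩ := h₁
  obtain ⟨η₂, hη₂, e₂⟩ := h₂
  obtain ⟨f₁, hf₁, k₁⟩ := g₁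
  obtain ⟨f₂, hf₂, k₂⟩ := g₂
  have hp1 : 1 ≤ p - 1 := by have := hp.two_le; omega
  set W : F := algebraMap K F w with hWdef
  set P : F := algebraMap K F π with hPdef
  have hW0 : W ≠ 0 := hw.algebraMap_ne_zero
  have hWO : W ∈ D.O := hw.algebraMap_mem
  have hPO : P ∈ D.O := hπ.algebraMap_mem
  -- `p W = - W ^ p`
  have hpW : (p : F) * W = - W ^ p := by
    have h1 : W ^ (p - 1) = -(p : F) := by
      rw [hWdef, ← map_pow, hwp, map_neg, map_natCast]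
    have h2 : W ^ p = W ^ (p - 1) * W := by
      rw [← pow_succ]
      congr 1
      omega
    rw [h2, h1]
    ring
  -- `x₁`
  have hx₁O : x₁ ∈ D.O := by
    rw [e₁]
    exact add_mem D.O.one_mem (mul_mem (hw.mul hπ).algebraMap_mem hη₁)
  have hx₁r : D.rd x₁ = 1 := by
    rw [e₁, ND.rd_add D.O.one_mem (mul_mem (hw.mul hπ).algebraMap_mem hη₁),
      ND.rd_small (hw.mul hπ) hη₁, ND.rd_one, add_zero]
  -- `γ`
  set γ : F := P * (η₂ - η₁) with hγdef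
  have hγO : γ ∈ D.O := mul_mem hPO (sub_mem hη₂ hη₁)
  have hγr : D.rd γ = 0 := ND.rd_small hπ (sub_mem hη₂ hη₁)
  have hx₂ : x₂ = x₁ + W * γ := by
    rw [e₁, e₂, map_mul]
    ring
  obtain ⟨r, hr, hbin⟩ := h F D.O p hp x₁ hx₁O (W * γ) (mul_mem hWO hγO)
  -- `v`
  set v : F := x₁ ^ (p - 1) + W * (γ * r) - γ ^ (p - 1) with hvdef
  have hvr : D.rd v = 1 := by
    have m1 : x₁ ^ (p - 1) ∈ D.O := pow_mem hx₁O _
    have m2 : W * (γ * r) ∈ D.O := mul_mem hWO (mul_mem hγO hr)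
    have m3 : γ ^ (p - 1) ∈ D.O := pow_mem hγO _
    rw [hvdef, ND.rd_sub (add_mem m1 m2) m3, ND.rd_add m1 m2, ND.rd_pow hx₁O, hx₁r, one_pow,
      ND.rd_small hw (mul_mem hγO hr), ND.rd_pow hγO, hγr, zero_pow (by omega), add_zero, sub_zero]
  have hv0 : v ≠ 0 := ND.ne_zero_of_rd_eq_one hvr
  have hu0 : u ≠ 0 := ND.ne_zero_of_rd_eq_one hu
  have hvi : v⁻¹ ∈ D.O := ND.inv_mem_of_rd_eq_one hvr
  have hui : u⁻¹ ∈ D.O := ND.inv_mem_of_rd_eq_one hu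
  have hγp : γ ^ p = γ * γ ^ (p - 1) := by
    rw [← pow_succ']
    congr 1
    omega
  have hpow : x₂ ^ p = x₁ ^ p - W ^ p * (γ * v) := by
    rw [hx₂, hbin, mul_pow W γ p, hγp, hvdef]
    linear_combination (x₁ ^ (p - 1) * γ + W * γ ^ 2 * r) * hpW
  -- cancel `W ^ p`
  have hkey : γ * v * u = - (P ^ n * (f₂ - f₁)) := by
    have h1 : W ^ p * (γ * v * u) = W ^ p * (- (P ^ n * (f₂ - f₁))) := by
      have k₁' : x₁ ^ p * u = 1 + W ^ p * P ^ n * f₁ := by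
        rw [k₁, map_mul, map_pow, map_pow]
      have k₂' : x₂ ^ p * u = 1 + W ^ p * P ^ n * f₂ := by
        rw [k₂, map_mul, map_pow, map_pow]
      rw [hpow] at k₂'
      linear_combination k₁' - k₂'
    exact mul_left_cancel₀ (pow_ne_zero p hW0) h1
  refine ⟨-(f₂ - f₁) * u⁻¹ * v⁻¹, mul_mem (mul_mem (neg_mem (sub_mem hf₂ hf₁)) hui) hvi, ?_⟩
  have hγ : γ = - (P ^ n * (f₂ - f₁)) * u⁻¹ * v⁻¹ := by
    rw [← hkey]
    field_simp
  rw [hx₂, map_mul, map_pow]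
  nth_rewrite 1 [hγ]
  ring

end Fermat.Agent.INJ.Deep
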