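import Fermat.Agent.INJ.Deep.SInterface
import Fermat.Agent.BR.Inv.S8

/-!
# INJ / Deep, package DEEP-17 : the reductions of `M(u)`, `M(u⁻¹)` are trivial when the exponent is
the residue characteristic (`Stmt_TrivPS`)  (helper54)
-/

set_option autoImplicit false

namespace Fermat.Agent.INJ.Deep

open Polynomial IntermediateField
open Fermat.Agent.BR.Inv

section Core

variable {K F k E : Type} [Field K] [Field F] [Algebra K F] [Field k] [CommRing E] [Algebra k E]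

/-- the lattice `M(v)`, `rd v = 1`, exponent `p` = residue characteristic: an orthonormal basis whose
reduction lies in `Bb`. -/
theorem D17_lattice (hCl : Stmt_Cl1Alg) (h6 : Stmt_SBasis) (hL : INJ.Stmt_MLattice)
    [IsAlgClosed K] [CharZero K] [IsAlgClosed k]
    (S : SData K F k E) (t : F) (hch : SChart S t) (htr : Transcendental K t)
    (b : Fin (Module.finrank K⟮t⟯ F) → F) (d : k[X])
    (hAS : AlgSetting k (S.rd t) (fun i => S.rd (b i)) d)
    (hbred : ∀ x ∈ S.O, IsInt K t x → S.rd x ∈ Sp k (S.rd t) (fun i => S.rd (b i)))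
    (v : F) (p : ℕ) (hp : p.Prime) (hpk : (p : k) = 0) (hv : S.rd v = 1) :
    ∃ (x : Fin (Module.finrank K⟮t⟯ F) → F)
      (P : Matrix (Fin (Module.finrank K⟮t⟯ F)) (Fin (Module.finrank K⟮t⟯ F)) k[X]),
      (∀ i, x i ∈ S.O) ∧
      (∀ z, z ∈ Submodule.span (Algebra.adjoin K {t}) (Set.range x) ↔ IsInt K t (z ^ p * v)) ∧
      LinearIndependent (Algebra.adjoin k {S.rd t}) (fun i => S.rd (x i)) ∧
      (∀ f ∈ Sp k (S.rd t) (fun i => S.rd (x i)),
        ∃ ζ ∈ S.O, S.rd ζ = f ∧ IsInt K t (ζ ^ p * v)) ∧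
      (∀ i, aeval (S.rd t) (1 : k[X]) * S.rd (x i) =
        ∑ j, aeval (S.rd t) (P i j) * S.rd (b j)) := by
  have hnt : Nontrivial E := S.nontrivial
  have hfin := hch.fin
  have hvu : IsUnit (S.rd v) := by rw [hv]; exact isUnit_one
  have hv0 : v ≠ 0 := SData.ne_zero_of_isUnit_rd hvu
  have hvO : v ∈ S.O := SData.mem_of_isUnit_rd hvu
  obtain ⟨Λ, l, hΛ, hl, hlli⟩ := hL K F t v p htr hfin hv0 hp.pos
  obtain ⟨x, hxO, hxspan, -, hxlib, -, hxlift⟩ := h6 K F k E S t hch Λ l hl hlli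
  have hz : ∀ z ∈ Sp k (S.rd t) (fun i => S.rd (x i)),
      z ∈ Sp k (S.rd t) (fun i => S.rd (b i)) := by
    intro z hz
    obtain ⟨ζ, hζΛ, hζO, rfl⟩ := hxlift z hz
    have h1 := hbred (ζ ^ p * v) (mul_mem (pow_mem hζO p) hvO) ((hΛ ζ).1 hζΛ)
    rw [SData.rd_mul (pow_mem hζO p) hvO, SData.rd_pow hζO, hv, mul_one] at h1
    exact hCl k E (S.rd t) _ _ d hAS p hp hpk _ h1
  have hP : ∀ i, ∃ P : Fin (Module.finrank K⟮t⟯ F) → k[X],
      aeval (S.rd t) (1 : k[X]) * S.rd (x i) = ∑ j, aeval (S.rd t) (P j) * S.rd (b j) := by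
    intro i
    rw [map_one, one_mul]
    exact (mem_Sp_iff (S.rd t) _ _).1 (hz _ (mem_Sp_self _ (fun i => S.rd (x i)) i))
  choose P hP using hP
  refine ⟨x, Matrix.of P, hxO, fun z => by rw [hxspan, hΛ], hxlib, ?_, hP⟩
  intro f hf
  obtain ⟨ζ, hζΛ, hζO, h⟩ := hxlift f hf
  exact ⟨ζ, hζO, h, (hΛ ζ).1 hζΛ⟩

/-- an invertible transition matrix: the two spans agree. -/
theorem D17_inv (τ : E) {n : ℕ} (b x : Fin n → E) (P : Matrix (Fin n) (Fin n) k[X])
    (hdet : IsUnit P.det)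
    (hP : ∀ i, aeval τ (1 : k[X]) * x i = ∑ j, aeval τ (P i j) * b j) :
    ∀ f ∈ Sp k τ b, f ∈ Sp k τ x := by
  have h1 : ∀ i, x i = ∑ l, aeval τ (P i l) * b l := fun i => by
    rw [← hP i, map_one, one_mul]
  have hb : ∀ j, b j ∈ Sp k τ x := by
    intro j
    rw [mem_Sp_iff]
    refine ⟨fun i => P⁻¹ j i, ?_⟩
    calc b j = ∑ l, aeval τ ((1 : Matrix (Fin n) (Fin n) k[X]) j l) * b l := by
          rw [Finset.sum_eq_single j]
          · rw [Matrix.one_apply_eq, map_one, one_mul]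
          · intro l _ hl
            rw [Matrix.one_apply_ne (Ne.symm hl), map_zero, zero_mul]
          · intro h; exact absurd (Finset.mem_univ j) h
      _ = ∑ l, aeval τ ((P⁻¹ * P) j l) * b l := by rw [Matrix.nonsing_inv_mul P hdet]
      _ = ∑ l, ∑ i, aeval τ (P⁻¹ j i) * (aeval τ (P i l) * b l) := by
          refine Finset.sum_congr rfl fun l _ => ?_
          rw [Matrix.mul_apply, map_sum, Finset.sum_mul]
          refine Finset.sum_congr rfl fun i _ => ?_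
          rw [map_mul, mul_assoc]
      _ = ∑ i, aeval τ (P⁻¹ j i) * x i := by
          rw [Finset.sum_comm]
          refine Finset.sum_congr rfl fun i _ => ?_
          rw [h1 i, Finset.mul_sum]
  intro f hf
  exact Submodule.span_le.2 (by rintro _ ⟨j, rfl⟩; exact hb j) hf

end Core

/-- **DEEP-17**. -/
theorem stmt_TrivPS (hCl : Stmt_Cl1Alg) (h1 : BR.Inv.Stmt_SGauss) (h6 : BR.Inv.Stmt_SBasis)
    (h7 : BR.Inv.Stmt_SSetting) (h8a : BR.Inv.Stmt_SDetRed) (hL : INJ.Stmt_MLattice)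
    (hD : INJ.Stmt_DetConst) : Stmt_TrivPS := by
  intro K F k E _ _ _ _ _ _ _ _ _ S t hch hsn p u hp hpk hu hloc
  have ht := hch.t_mem
  have hun := hch.unit
  have hfin := hch.fin
  have hnt : Nontrivial E := S.nontrivial
  have huu : IsUnit (S.rd u) := by rw [hu]; exact isUnit_one
  have hu0 : u ≠ 0 := SData.ne_zero_of_isUnit_rd huu
  have huO : u ∈ S.O := SData.mem_of_isUnit_rd huu
  have huO' : u⁻¹ ∈ S.O := SData.inv_mem_of_isUnit_rd huu
  have hu' : S.rd u⁻¹ = 1 := by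
    have := SData.rd_mul_rd_inv hu0 huO huO'
    rwa [hu, one_mul] at this
  obtain ⟨-, -, -, g4, -, -, -⟩ := h1 K F k E S t ht hun
  obtain ⟨b, d, hbO, hbspan, hbli, hAS, hbred, -⟩ := h7 K F k E S t hch hsn
  obtain ⟨x, P, hxO, hxspan, hxlib, hxlift, hP⟩ := D17_lattice hCl h6 hL S t hch g4 b d hAS hbred
    u p hp hpk hu
  obtain ⟨y, P', hyO, hyspan, hylib, hylift, hP'⟩ := D17_lattice hCl h6 hL S t hch g4 b d hAS hbred
    u⁻¹ p hp hpk hu'
  obtain ⟨TM, hTM⟩ := S8_coord t b x hbli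
  obtain ⟨TN, hTN⟩ := S8_coord t b y hbli
  obtain ⟨c0, hc0, hc⟩ := hD K F t u p g4 hfin hu0 hp.pos hloc _ b x y hbli hbspan hxspan hyspan
    TM TN hTM hTN
  obtain ⟨hMO, hMO', hMdet⟩ := h8a K F k E S t ht hun _ b x hbO hxO hAS.li hxlib TM hTM
  obtain ⟨hNO, hNO', hNdet⟩ := h8a K F k E S t ht hun _ b y hbO hyO hAS.li hylib TN hTN
  have hcF : ((TM.det : K⟮t⟯) : F) * ((TN.det : K⟮t⟯) : F) = algebraMap K F c0 :=
    congrArg Subtype.val hc
  have hcA : c0 ∈ S.A := (S.mem_iff c0).1 (hcF ▸ mul_mem hMO hNO)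
  have hcA' : c0⁻¹ ∈ S.A := by
    rw [← S.mem_iff, map_inv₀, ← hcF, mul_inv]
    exact mul_mem hMO' hNO'
  have hne : S.ra c0 ≠ 0 := SData.ra_ne_zero_of_inv_mem hc0 hcA hcA'
  have hdet : P.det * P'.det = C (S.ra c0) := by
    apply hAS.aeval_injective
    rw [map_mul, hMdet 1 P hP, hNdet 1 P' hP', aeval_C,
      ← SData.rd_algebraMap hcA, ← hcF, SData.rd_mul hMO hNO, map_one, one_pow, one_mul, one_mul]
  have hCu : IsUnit (C (S.ra c0) : k[X]) := Polynomial.isUnit_C.2 (isUnit_iff_ne_zero.2 hne)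
  have hPu : IsUnit P.det := isUnit_of_mul_isUnit_left (hdet ▸ hCu)
  have hPu' : IsUnit P'.det := isUnit_of_mul_isUnit_right (hdet ▸ hCu)
  constructor
  · obtain ⟨ζ, hζO, hζ, hint⟩ := hxlift 1
      (D17_inv (S.rd t) (fun i => S.rd (b i)) (fun i => S.rd (x i)) P hPu hP 1 hAS.one)
    exact ⟨ζ, hζO, hζ, hint⟩
  · obtain ⟨ζ, hζO, hζ, hint⟩ := hylift 1
      (D17_inv (S.rd t) (fun i => S.rd (b i)) (fun i => S.rd (y i)) P' hPu' hP' 1 hAS.one)
    exact ⟨ζ, hζO, hζ, hint⟩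

end Fermat.Agent.INJ.Deep
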