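import Fermat.Agent.INJ.Deep.Interface

/-!
# INJ / Deep, package DEEP-10 : local part of Theorem D''
`U = s u / u ^ a` has a deep section on the chart `t`.
-/

set_option autoImplicit false

namespace Fermat.Agent.INJ.Deep

open Polynomial IntermediateField

/-- binomial formula up to second order, with control of the remainder. -/
theorem D10_binom {R : Type*} [CommRing R] (S : Subring R) (b c : R) (hb : b ∈ S) (hc : c ∈ S)
    (a : ℕ) : ∃ r ∈ S, (b + c) ^ a = b ^ a + (a : R) * b ^ (a - 1) * c + c ^ 2 * r := by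
  induction a with
  | zero => exact ⟨0, S.zero_mem, by simp⟩
  | succ a ih =>
    obtain ⟨r, hr, h⟩ := ih
    refine ⟨(a : R) * b ^ (a - 1) + r * (b + c), ?_, ?_⟩
    · exact S.add_mem (S.mul_mem (natCast_mem S a) (S.pow_mem hb _))
        (S.mul_mem hr (S.add_mem hb hc))
    · have h2 : (a : R) * b ^ (a - 1) * b = (a : R) * b ^ a := by
        rcases a with _ | a
        · simp
        · rw [Nat.add_sub_cancel, mul_assoc, ← pow_succ]
      rw [pow_succ, h, Nat.add_sub_cancel]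
      push_cast
      linear_combination c * h2

/-- powers of elements congruent to `1`. -/
theorem D10_cg_pow {K F E : Type*} [Field K] [Field F] [Algebra K F] [CommRing E] {D : ND K F E}
    {c : K} {x : F} (h : D.Cg c x 1) (hx : x ∈ D.O) (n : ℕ) : D.Cg c (x ^ n) 1 := by
  induction n with
  | zero => rw [pow_zero]; exact ND.Cg.refl _ _
  | succ n ih =>
    rw [pow_succ]
    have := ND.Cg.mul ih h D.O.one_mem hx
    rwa [one_mul] at this

/-- **DEEP-10.** -/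
theorem stmt_Twist (h1 : Stmt_L1) (h3 : Stmt_L3) : Stmt_Twist := by
  intro K F E _ _ _ _ _ D t u p w π' π'' a' a s hW hπ' hu hπ'' hsu hArch hBA hCl1 hs hsI ha' hrda'
    hsw hx hxN
  obtain ⟨hp, hw, -⟩ := id hW
  have hwpS : D.Sm (w ^ p) := hw.pow hp.pos
  have hc1 : D.Sm (w ^ p * π') := hwpS.mul hπ'
  have huO : u ∈ D.O := hu.mem hc1.1 D.O.one_mem
  have hurd : D.rd u = 1 := by rw [hu.rd_eq hc1 D.O.one_mem, ND.rd_one]
  have hu0 : u ≠ 0 := ND.ne_zero_of_rd_eq_one hurd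
  have hu'O : u⁻¹ ∈ D.O := ND.inv_mem_of_rd_eq_one hurd
  have huu : u * u⁻¹ = 1 := mul_inv_cancel₀ hu0
  have hu' : D.Cg (w ^ p * π') u⁻¹ 1 := by
    obtain ⟨f0, hf0, e⟩ := hu
    refine ⟨-(f0 * u⁻¹), neg_mem (mul_mem hf0 hu'O), ?_⟩
    linear_combination huu - u⁻¹ * e
  obtain ⟨x0, hx0O, hx0rd, hx0I⟩ := hx
  obtain ⟨xN0, hxN0O, hxN0rd, hxN0I⟩ := hxN
  obtain ⟨x, b, y, hxO, hxI, hbO, hbI, hyO, hxe, hbrd, -⟩ :=
    h1 K F E D t u p w π' hW hπ' hu hBA hCl1 x0 hx0O hx0rd hx0I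
  obtain ⟨xN, bN, yN, hxNO, hxNI, hbNO, hbNI, hyNO, hxNe, hbNrd, -⟩ :=
    h1 K F E D t u⁻¹ p w π' hW hπ' hu' hBA hCl1 xN0 hxN0O hxN0rd hxN0I
  have hWO : algebraMap K F w ∈ D.O := hw.algebraMap_mem
  -- (L6)
  have hL6 : D.InB t (D.rd y + D.rd yN) := by
    have m1 : b * yN ∈ D.O := mul_mem hbO hyNO
    have m2 : bN * y ∈ D.O := mul_mem hbNO hyO
    have m3 : y * yN ∈ D.O := mul_mem hyO hyNO
    refine ⟨b * yN + bN * y + algebraMap K F w * (y * yN),
      add_mem (add_mem m1 m2) (mul_mem hWO m3), ?_, ?_⟩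
    · apply isInt_of_smul hw.ne_zero
      have e : algebraMap K F w * (b * yN + bN * y + algebraMap K F w * (y * yN))
          = x * xN - b * bN := by
        rw [hxe, hxNe]; ring
      rw [e]
      refine IsIntegral.sub ?_ (IsIntegral.mul hbI hbNI)
      apply IsIntegral.of_pow hp.pos
      have e2 : (x * xN) ^ p = (x ^ p * u) * (xN ^ p * u⁻¹) := by
        linear_combination (-(x ^ p * xN ^ p)) * huu
      rw [e2]
      exact IsIntegral.mul hxI hxNI
    · rw [ND.rd_add (add_mem m1 m2) (mul_mem hWO m3), ND.rd_add m1 m2, ND.rd_mul hbO hyNO,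
        ND.rd_mul hbNO hyO, hbrd, hbNrd, ND.rd_small hw m3]
      ring
  -- expansion of `xN ^ a`
  obtain ⟨r', hr'O, hr'⟩ := D10_binom D.O bN (algebraMap K F w * yN) hbNO (mul_mem hWO hyNO) a
  obtain ⟨e, he⟩ : ∃ e : F, e = (a : F) * bN ^ (a - 1) * yN + algebraMap K F w * (yN ^ 2 * r') :=
    ⟨_, rfl⟩
  have m4 : (a : F) * bN ^ (a - 1) ∈ D.O := mul_mem (ND.natCast_mem a) (pow_mem hbNO _)
  have m5 : yN ^ 2 * r' ∈ D.O := mul_mem (pow_mem hyNO 2) hr'O
  have heO : e ∈ D.O := by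
    rw [he]; exact add_mem (mul_mem m4 hyNO) (mul_mem hWO m5)
  have hxNa : xN ^ a = bN ^ a + algebraMap K F w * e := by
    rw [hxNe, hr', he]; ring
  have herd : D.rd e = (a : E) * D.rd yN := by
    rw [he, ND.rd_add (mul_mem m4 hyNO) (mul_mem hWO m5), ND.rd_small hw m5, ND.rd_mul m4 hyNO,
      ND.rd_mul (ND.natCast_mem a) (pow_mem hbNO _), ND.rd_natCast, ND.rd_pow hbNO, hbNrd, one_pow,
      mul_one, add_zero]
  have hxNrd : D.rd xN = 1 := by
    rw [hxNe, ND.rd_add hbNO (mul_mem hWO hyNO), ND.rd_small hw hyNO, hbNrd, add_zero]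
  -- `s x`
  have hsx : s x = s b + algebraMap K F a' * algebraMap K F w * s y := by
    rw [hxe, map_add, map_mul, hsw, map_mul]
  have ha'O : algebraMap K F a' ∈ D.O := D.alg_mem a' ha'
  have hsbO := (hs b hbO).1
  have hsyO := (hs y hyO).1
  have hxNaO : xN ^ a ∈ D.O := pow_mem hxNO a
  have m6 : algebraMap K F a' * s y ∈ D.O := mul_mem ha'O hsyO
  -- common modulus
  obtain ⟨πc, hπc, hc1', hc2'⟩ := ND.exists_common hπ' hπ''
  have hwp0 : w ^ p ≠ 0 := hwpS.ne_zero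
  have hcc : w ^ p * πc ≠ 0 := mul_ne_zero hwp0 hπc.ne_zero
  have hsu' : D.Cg (w ^ p * πc) (s u) 1 := by
    refine hsu.mono hcc ?_
    have : w ^ p * π'' * (w ^ p * πc)⁻¹ = π'' * πc⁻¹ := by
      rw [mul_inv]; field_simp
    rw [this]; exact hc2'
  have hu'' : D.Cg (w ^ p * πc) u⁻¹ 1 := by
    refine hu'.mono hcc ?_
    have : w ^ p * π' * (w ^ p * πc)⁻¹ = π' * πc⁻¹ := by
      rw [mul_inv]; field_simp
    rw [this]; exact hc1'
  have hU : D.Cg (w ^ p * πc) (s u * (u ^ a)⁻¹) 1 := by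
    rw [← inv_pow]
    have := ND.Cg.mul hsu' (D10_cg_pow hu'' hu'O a) D.O.one_mem (pow_mem hu'O a)
    rwa [one_mul] at this
  refine h3 K F E D t _ p w πc hW hπc hU hArch (s x * xN ^ a) (s b * bN ^ a)
    (algebraMap K F a' * s y * xN ^ a + s b * e) ?_ ?_ ?_ ?_ ?_ ?_ ?_ ?_
  · exact mul_mem (hs x hxO).1 hxNaO
  · have e3 : (s x * xN ^ a) ^ p * (s u * (u ^ a)⁻¹) = s (x ^ p * u) * (xN ^ p * u⁻¹) ^ a := by
      rw [map_mul, map_pow, ← inv_pow]; ring
    rw [e3]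
    exact IsIntegral.mul (hsI _ hxI) (IsIntegral.pow hxNI a)
  · exact mul_mem hsbO (pow_mem hbNO a)
  · exact IsIntegral.mul (hsI _ hbI) (IsIntegral.pow hbNI a)
  · exact add_mem (mul_mem m6 hxNaO) (mul_mem hsbO heO)
  · rw [hsx]
    linear_combination (s b) * hxNa
  · rw [ND.rd_mul hsbO (pow_mem hbNO a), (hs b hbO).2, hbrd, ND.rd_pow hbNO, hbNrd, one_pow,
      one_mul]
  · have e4 : D.rd (algebraMap K F a' * s y * xN ^ a + s b * e)
        = (a : E) * (D.rd y + D.rd yN) := by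
      rw [ND.rd_add (mul_mem m6 hxNaO) (mul_mem hsbO heO), ND.rd_mul m6 hxNaO, ND.rd_mul ha'O hsyO,
        hrda', (hs y hyO).2, ND.rd_pow hxNO, hxNrd, one_pow, mul_one, ND.rd_mul hsbO heO,
        (hs b hbO).2, hbrd, one_mul, herd]
      ring
    rw [e4]
    exact ND.InB.mul ⟨(a : F), ND.natCast_mem a, isInt_natCast t a, ND.rd_natCast a⟩ hL6

end Fermat.Agent.INJ.Deep
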