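import Fermat.Agent.INJ.Deep.DeepS
import Fermat.Agent.INJ.Deep.Twist
import Fermat.Agent.INJ.Deep.Core
import Fermat.Agent.INJ.Deep.L1
import Fermat.Agent.INJ.Deep.L3
import Fermat.Agent.INJ.Deep.L4
import Fermat.Agent.INJ.Deep.L5
import Fermat.Agent.INJ.Deep.Binom
import Fermat.Agent.INJ.Deep.BAS
import Fermat.Agent.INJ.Deep.Cl1S
import Fermat.Agent.INJ.Deep.TrivPS
import Fermat.Agent.BR.Inv.GAll

/-!
# INJ / Deep : Theorem D'' (abstract form), unconditionally
-/

set_option autoImplicit false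

namespace Fermat.Agent.INJ.Deep

open Fermat.Agent.BR.Inv

theorem all_PowCg : Stmt_PowCg := stmt_PowCg stmt_Binom

theorem all_Cl1Alg : Stmt_Cl1Alg := stmt_Cl1Alg stmt_Points stmt_OtBasis

theorem all_Twist : Stmt_Twist := stmt_Twist (stmt_L1 stmt_Binom) (stmt_L3 all_PowCg)

theorem all_Core : Stmt_Core := stmt_Core (stmt_L4 stmt_Binom) (stmt_L5 stmt_Binom)

/-- **Theorem D'' (abstract form)**, unconditionally. -/
theorem all_DeepS : Stmt_DeepS :=
  stmt_DeepS all_Twist all_Core (stmt_BAS stmt_SGauss GAll_SOrtho GAll_SSetting)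
    (stmt_Cl1S all_Cl1Alg GAll_SSetting)
    (stmt_TrivPS all_Cl1Alg stmt_SGauss GAll_SBasis GAll_SSetting GAll_SDetRed INJ.stmt_MLattice
      INJ.stmt_DetConst)
    stmt_SGauss GAll_SBasis GAll_SBT stmt_SChartInv INJ.stmt_MLattice INJ.stmt_Const

end Fermat.Agent.INJ.Deep
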