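import Fermat.Agent.INJ.Deep.Interface
import Fermat.Agent.INJ.All

/-!
# INJ / Deep, package DEEP-8 : normality of the reduction ⟹ `Bbar` is closed under `p`-th roots and
Artin–Schreier roots
-/

set_option autoImplicit false

namespace Fermat.Agent.INJ.Deep

open Polynomial IntermediateField

/-- a root of `X ^ p - X - g` with `g` integral is integral. -/
theorem D8_isIntegral_of_AS {R S : Type*} [CommRing R] [CommRing S] [Algebra R S] {f : S} {p : ℕ}
    (hp : 1 < p) (h : IsIntegral R (f ^ p - f)) : IsIntegral R f := by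
  nontriviality S
  let g : integralClosure R S := ⟨f ^ p - f, h⟩
  have hint : IsIntegral (integralClosure R S) f := by
    have hdeg : (X + C g : (integralClosure R S)[X]).degree < ((p : ℕ) : WithBot ℕ) := by
      rw [degree_X_add_C]
      exact_mod_cast hp
    refine ⟨X ^ p - (X + C g), monic_X_pow_sub hdeg, ?_⟩
    rw [eval₂_sub, eval₂_add, eval₂_pow, eval₂_X, eval₂_C]
    show f ^ p - (f + (f ^ p - f)) = 0
    ring
  exact isIntegral_trans f hint

section

variable {K F k Fb : Type} [Field K] [Field F] [Algebra K F] [Field k] [Field Fb] [Algebra k Fb]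
  (D : RedData K F k Fb) (w₀ : K) (h₀ : w₀ ∈ D.A ∧ w₀⁻¹ ∉ D.A) (t : F)

/-- `InB` for `ofRed`, unfolded. -/
theorem D8_inB_iff (g : Fb) :
    (ofRed D w₀ h₀).InB t g ↔ ∃ b ∈ D.O, IsInt K t b ∧ D.rd b = g := by
  unfold ND.InB
  constructor
  · rintro ⟨b, hb, hbI, h⟩
    exact ⟨b, (mem_ofRed_O D w₀ h₀).1 hb, hbI, by rw [← ofRed_rd D w₀ h₀]; exact h⟩
  · rintro ⟨b, hb, hbI, h⟩
    exact ⟨b, (mem_ofRed_O D w₀ h₀).2 hb, hbI, by rw [ofRed_rd D w₀ h₀]; exact h⟩

/-- `Bbar` is exactly the integral closure of `k[tbar]` in `Fb`. -/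
theorem D8_inB_iff_isInt [IsAlgClosed K] [CharZero K] (hC : Chart D t) (hB : Branch D t) (g : Fb) :
    (ofRed D w₀ h₀).InB t g ↔ IsInt k (D.rd t) g := by
  rw [D8_inB_iff]
  constructor
  · rintro ⟨b, hb, hbI, rfl⟩
    exact all_IntRed K F k Fb D t hC b hb hbI
  · intro h
    exact all_Normal K F k Fb D t hC hB g h

end

theorem stmt_ClRed : Stmt_ClRed := by
  intro K F k Fb _ _ _ _ _ _ _ _ D w₀ h₀ t hC hB p hp
  refine ⟨fun f hf => ?_, fun f hf => ?_⟩
  · rw [D8_inB_iff_isInt D w₀ h₀ t hC hB] at hf ⊢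
    exact IsIntegral.of_pow hp.pos hf
  · rw [D8_inB_iff_isInt D w₀ h₀ t hC hB] at hf ⊢
    exact D8_isIntegral_of_AS hp.one_lt hf

end Fermat.Agent.INJ.Deep
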