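import Fermat.Agent.INJ.Deep.InstInterface
import Fermat.Agent.INJ.Inst.DescentDeg
import Fermat.Agent.INJ.Inst.Basic
import Fermat.Agent.S28.FN7f
import Fermat.Agent.S28.Toolkit

/-!
# INJ / Deep, DEEP-13 : a cube root at level `lcm(N, 2)` of an element of level `N` has level `N`
(`X₀(2N) → X₀(N)` is not Galois).
-/

set_option autoImplicit false

noncomputable section

namespace Fermat.Agent.INJ.Deep

open AlgebraicCurve ModularCurve IntermediateField Polynomial
open Fermat.Agent.INJ.Inst (Qb FL kA IsGauss)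

/-! ### abstract field theory -/

theorem D13_adjoin_eq_top {K E : Type*} [Field K] [Field E] [Algebra K E]
    (h3 : Module.finrank K E = 3) (x : E) (hx : x ∉ (⊥ : IntermediateField K E)) : K⟮x⟯ = ⊤ := by
  have hs := IntermediateField.isSimpleOrder_of_finrank_prime K E (h3 ▸ Nat.prime_three)
  exact (eq_bot_or_eq_top K⟮x⟯).resolve_left
    (fun h => hx (IntermediateField.adjoin_simple_eq_bot_iff.mp h))

theorem D13_normal {K E : Type*} [Field K] [Field E] [Algebra K E] (h3 : Module.finrank K E = 3)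
    {ζ : K} (hζ : IsPrimitiveRoot ζ 3) (g : E) (u : K) (hg : g ^ 3 = algebraMap K E u)
    (hgK : g ∉ (⊥ : IntermediateField K E)) : Normal K E := by
  have : FiniteDimensional K E := Module.finite_of_finrank_pos (by omega)
  have htop : K⟮g⟯ = ⊤ := D13_adjoin_eq_top h3 g hgK
  have hK : (primitiveRoots (Module.finrank K E) K).Nonempty :=
    ⟨ζ, by rw [h3, mem_primitiveRoots (by norm_num)]; exact hζ⟩
  have := isSplittingField_X_pow_sub_C_of_root_adjoin_eq_top hK (a := u) (α := g)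
    (by rw [h3]; exact hg) htop
  exact Normal.of_isSplittingField (X ^ (Module.finrank K E) - C u)

theorem D13_splits {K E : Type*} [Field K] [Field E] [Algebra K E] (h3 : Module.finrank K E = 3)
    (hn : Normal K E) (P : K[X]) (hP : P.Monic) (hdeg : P.natDegree = 3) (x : E)
    (hx : x ∉ (⊥ : IntermediateField K E)) (hroot : aeval x P = 0) :
    (P.map (algebraMap K E)).Splits := by
  have : FiniteDimensional K E := Module.finite_of_finrank_pos (by omega)
  have htop : K⟮x⟯ = ⊤ := D13_adjoin_eq_top h3 x hx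
  have hint : IsIntegral K x := IsIntegral.of_finite K x
  have hdeg' : (minpoly K x).natDegree = 3 := by
    rw [← IntermediateField.adjoin.finrank hint, htop, IntermediateField.finrank_top', h3]
  have : P = minpoly K x :=
    eq_of_monic_of_dvd_of_natDegree_le (minpoly.monic hint) hP (minpoly.dvd K x hroot) (by omega)
  rw [this]
  exact hn.splits x

/-- abstract core: if `F₂ / F₁` has degree dividing `3` and `F₂ ∖ F₁` contains a cube root of an
element of `F₁` then every monic cubic over `F₁` with a root in `F₂ ∖ F₁` splits. -/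
theorem D13_abs {K L : Type*} [Field K] [Field L] [Algebra K L] (F1 F2 : IntermediateField K L)
    (h12 : F1 ≤ F2) (hd : relfinrank F1 F2 ∣ 3) {ζ : K} (hζ : IsPrimitiveRoot ζ 3)
    (g : L) (hg : g ∈ F2) (hgu : g ^ 3 ∈ F1) (hgF1 : g ∉ F1)
    (P : F1[X]) (hP : P.Monic) (hdeg : P.natDegree = 3) (x : L) (hx : x ∈ F2) (hx1 : x ∉ F1)
    (hroot : aeval x P = 0) : (P.map (algebraMap F1 L)).Splits := by
  rw [relfinrank_eq_finrank_of_le h12] at hd
  have h3 : Module.finrank F1 (extendScalars h12) = 3 := by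
    rcases (Nat.dvd_prime Nat.prime_three).mp hd with h1 | h3
    · exfalso
      rw [IntermediateField.finrank_eq_one_iff] at h1
      have hg' : g ∈ extendScalars h12 := hg
      rw [h1, IntermediateField.mem_bot] at hg'
      obtain ⟨a, rfl⟩ := hg'
      exact hgF1 a.2
    · exact h3
  have hbot : ∀ y : extendScalars h12, (y : L) ∉ F1 →
      y ∉ (⊥ : IntermediateField F1 (extendScalars h12)) := by
    intro y hy hy'
    rw [IntermediateField.mem_bot] at hy'
    obtain ⟨a, rfl⟩ := hy'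
    exact hy a.2
  have hζ1 : IsPrimitiveRoot (algebraMap K F1 ζ) 3 :=
    hζ.map_of_injective (algebraMap K F1).injective
  have hnorm : Normal F1 (extendScalars h12) :=
    D13_normal h3 hζ1 (⟨g, hg⟩ : extendScalars h12) ⟨g ^ 3, hgu⟩ (Subtype.ext rfl) (hbot _ hgF1)
  have hsp := D13_splits h3 hnorm P hP hdeg (⟨x, hx⟩ : extendScalars h12) (hbot _ hx1) (by
    apply (algebraMap (extendScalars h12) L).injective
    rw [map_zero, ← Polynomial.aeval_algebraMap_apply]
    exact hroot)
  have hsp2 := hsp.map (algebraMap (extendScalars h12) L)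
  rw [Polynomial.map_map, ← IsScalarTower.algebraMap_eq] at hsp2
  exact hsp2

/-! ### the formal contradiction -/

/-- `Φ₂(X, j(q^d))` does not split over `ℚ̄((q))` for `d` odd. -/
theorem D13_not_splits {Φ : Qb[X][X]} (hΦ : S28.IsModPoly 2 Φ) {d : ℕ} (hd0 : d ≠ 0)
    (hd : ¬ 2 ∣ d) : ¬ (Φ.map (S28.evY (S28.jd Qb d))).Splits := by
  intro hs
  obtain ⟨hm, -, -, h4⟩ := hΦ
  have h5 : S28.ev2 Φ (S28.jd Qb d) (S28.jd Qb (d * 2)) = 0 := by
    have := congrArg (S28.Vq Qb d) h4
    rwa [S28.BC.Vq_ev2, map_zero, S28.Vq_jd hd0 two_ne_zero] at this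
  have h6 : S28.Vq Qb 2 (S28.jd Qb d) = S28.jd Qb (d * 2) := by
    rw [S28.Vq_jd two_ne_zero hd0, mul_comm]
  have hroot : ((Φ.map (S28.evY (S28.jd Qb d))).map (S28.Vq Qb 2)).IsRoot (S28.jd Qb d) := by
    rw [Polynomial.map_map, S28.BC.Vq_comp_evY, h6, IsRoot.def, eval_map]
    exact h5
  obtain ⟨r, hr⟩ := hs.mem_range_of_isRoot (hm.map _).ne_zero hroot
  have h7 := INJ.Inst.coeff_jd (R := Qb) hd0
  rw [← hr, S28.Vq_coeff_of_not_dvd two_ne_zero] at h7
  · exact zero_ne_one h7
  · rw [Int.dvd_neg]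
    exact_mod_cast hd

theorem D13_jBarSeries (d : ℕ) [NeZero d] : S24.jBarSeries d = S28.jd Qb d := by
  rw [S24.jBarSeries, coeffEmb, coeffMap_qExpand, ← jqModC_rat, coeffMap_jqModC, S28.jd, S28.Vq_eq]

/-- evaluation of the inner variable at an element of an intermediate field. -/
def D13_ev1 (F : IntermediateField Qb (LaurentSeries Qb)) (y : LaurentSeries Qb) (hy : y ∈ F) :
    Qb[X] →+* F :=
  Polynomial.eval₂RingHom (algebraMap Qb F) ⟨y, hy⟩

theorem D13_ev (F : IntermediateField Qb (LaurentSeries Qb)) (y : LaurentSeries Qb) (hy : y ∈ F) :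
    (algebraMap F (LaurentSeries Qb)).comp (D13_ev1 F y hy) = S28.evY y := by
  apply Polynomial.ringHom_ext
  · intro a
    simp only [D13_ev1, S28.evY, RingHom.comp_apply, Polynomial.coe_eval₂RingHom, eval₂_C]
    rw [← IsScalarTower.algebraMap_apply, algebraMap_laurentSeries_eq_single, HahnSeries.C_apply]
  · simp only [D13_ev1, S28.evY, RingHom.comp_apply, Polynomial.coe_eval₂RingHom, eval₂_X]
    rfl

theorem stmt_Cube : Stmt_Cube := by
  intro N _ u g hu hg hgu
  by_cases h2 : 2 ∣ N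
  · rwa [Nat.lcm_eq_left h2] at hg
  by_contra hgF1
  have hN0 : N ≠ 0 := NeZero.ne N
  have : NeZero (N.lcm 2) := ⟨Nat.lcm_ne_zero hN0 two_ne_zero⟩
  have hcop : Nat.Coprime N 2 :=
    Nat.coprime_comm.mp ((Nat.Prime.coprime_iff_not_dvd Nat.prime_two).mpr h2)
  have h12 : modularFunctionFieldBar N ≤ modularFunctionFieldBar (N.lcm 2) :=
    INJ.Inst.Descent.bar_le (Nat.dvd_lcm_left N 2)
  have hd : relfinrank (modularFunctionFieldBar N) (modularFunctionFieldBar (N.lcm 2)) ∣ 3 :=
    INJ.Inst.Descent.relfinrank_lcm_dvd N Nat.prime_two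
  have : NeZero ((3 : ℕ) : Qb) := ⟨by norm_num⟩
  obtain ⟨ζ, hζ⟩ := HasEnoughRootsOfUnity.exists_primitiveRoot Qb 3
  -- a generator of level `2 N` which is not of level `N`
  obtain ⟨d, hdN, hJ2⟩ : ∃ d, d ∣ N ∧ S28.jd Qb (d * 2) ∉ modularFunctionFieldBar N := by
    by_contra hall
    push Not at hall
    apply hgF1
    have hle : modularFunctionFieldBar (N.lcm 2) ≤ modularFunctionFieldBar N := by
      refine (S24.QX.modularFunctionFieldBar_le _).trans ?_
      rw [IntermediateField.adjoin_le_iff]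
      rintro _ ⟨e, he0, he, rfl⟩
      rw [D13_jBarSeries]
      rw [hcop.lcm_eq_mul] at he
      by_cases he2 : 2 ∣ e
      · obtain ⟨d, rfl⟩ := he2
        rw [mul_comm 2 d] at he ⊢
        exact hall d (Nat.dvd_of_mul_dvd_mul_right two_pos he)
      · have hce : Nat.Coprime e 2 :=
          Nat.coprime_comm.mp ((Nat.Prime.coprime_iff_not_dvd Nat.prime_two).mpr he2)
        exact INJ.Inst.jd_mem_bar hN0 (hce.dvd_of_dvd_mul_right he)
    exact hle hg
  have hd0 : d ≠ 0 := fun h => hN0 (by rw [h] at hdN; exact Nat.eq_zero_of_zero_dvd hdN)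
  have hd2 : ¬ 2 ∣ d := fun h => h2 (h.trans hdN)
  have hJ1 : S28.jd Qb d ∈ modularFunctionFieldBar N := INJ.Inst.jd_mem_bar hN0 hdN
  have hJ2' : S28.jd Qb (d * 2) ∈ modularFunctionFieldBar (N.lcm 2) :=
    INJ.Inst.jd_mem_bar (NeZero.ne _) (by
      rw [hcop.lcm_eq_mul]
      exact Nat.mul_dvd_mul_right hdN 2)
  obtain ⟨Φ, hΦ⟩ := S28.FN7.hasModPoly Qb Nat.prime_two
  apply D13_not_splits hΦ hd0 hd2
  -- the polynomial `Φ(X, J₁)` over `F₁`
  have hev1 := D13_ev (modularFunctionFieldBar N) (S28.jd Qb d) hJ1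
  have h5 : S28.ev2 Φ (S28.jd Qb (d * 2)) (S28.jd Qb d) = 0 := by
    have := congrArg (S28.Vq Qb d) hΦ.2.2.1
    rwa [S28.BC.Vq_ev2, map_zero, S28.Vq_jd hd0 two_ne_zero] at this
  have hsp := D13_abs (modularFunctionFieldBar N) (modularFunctionFieldBar (N.lcm 2)) h12 hd hζ
    g hg (hgu ▸ hu) hgF1 (Φ.map (D13_ev1 (modularFunctionFieldBar N) (S28.jd Qb d) hJ1))
    (hΦ.1.map _) (by rw [hΦ.1.natDegree_map, hΦ.2.1]) (S28.jd Qb (d * 2)) hJ2' hJ2 (by
      rw [Polynomial.aeval_def, Polynomial.eval₂_map, hev1]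
      exact h5)
  rw [Polynomial.map_map, hev1] at hsp
  exact hsp

end Fermat.Agent.INJ.Deep

end
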