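import Fermat.Agent.INJ.Deep.Interface
import Fermat.Agent.INJ.All

/-!
# INJ / Deep, DEEP-9 : assembly of Theorem A (`Stmt_DeepA`)
-/

set_option autoImplicit false

namespace Fermat.Agent.INJ.Deep

open Polynomial IntermediateField

/-- a deep section on one chart. -/
theorem D9_chart (h1 : Stmt_L1) (h3 : Stmt_L3) (hBA : Stmt_BARed) (hCl : Stmt_ClRed)
    {K F k Fb : Type} [Field K] [Field F] [Algebra K F] [Field k] [Field Fb] [Algebra k Fb]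
    [IsAlgClosed K] [CharZero K] (D : RedData K F k Fb) (w₀ : K) (h₀ : w₀ ∈ D.A ∧ w₀⁻¹ ∉ D.A)
    (t : F) (hC : Chart D t) (hB : Branch D t) (hArch : Arch D) (p : ℕ) (w π' : K) (u : F)
    (hW : IsW (ofRed D w₀ h₀) p w) (hπ' : (ofRed D w₀ h₀).Sm π')
    (hu : (ofRed D w₀ h₀).Cg (w ^ p * π') u 1) (hrd : D.rd u = 1) (hL : LocPow K t u p) :
    ∃ (π : K) (x : F), (ofRed D w₀ h₀).Sm π ∧ DeepSec (ofRed D w₀ h₀) t u p w π x := by
  obtain ⟨⟨x, hxO, hx1, hxI⟩, -⟩ := all_LocTriv K F k Fb D t hC hB u p hW.1.pos hrd hL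
  obtain ⟨hCl1, hCl2⟩ := hCl K F k Fb D w₀ h₀ t hC hB p hW.1
  obtain ⟨x', b, y, hx'O, hx'I, hbO, hbI, hyO, hx'e, hb1, hyB⟩ :=
    h1 K F Fb (ofRed D w₀ h₀) t u p w π' hW hπ' hu (hBA K F k Fb D w₀ h₀ t hC) hCl1 x hxO
      (by rw [ofRed_rd]; exact hx1) hxI
  exact h3 K F Fb (ofRed D w₀ h₀) t u p w π' hW hπ' hu (ofRed_arch D w₀ h₀ hArch) x' b y hx'O hx'I
    hbO hbI hyO hx'e hb1 (hCl2 _ hyB)

theorem stmt_DeepA (h1 : Stmt_L1) (h3 : Stmt_L3) (hC : Stmt_Core) (hBA : Stmt_BARed)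
    (hCl : Stmt_ClRed) : Stmt_DeepA := by
  intro K F k Fb _ _ _ _ _ _ _ _ D t hCt hCt' hBt hBt' hArch p w π' u f hp hw hwA hwr hπ0 hπA hπr
    hf hu hL hL'
  have hw0 : w ≠ 0 := by
    rintro rfl
    rw [zero_pow (by have := hp.two_le; omega)] at hw
    have h0 : (p : K) = 0 := by linear_combination hw
    exact hp.ne_zero (by exact_mod_cast h0)
  have h₀ : w ∈ D.A ∧ w⁻¹ ∉ D.A := by
    refine ⟨hwA, fun h' => ?_⟩
    have h2 : D.rd (algebraMap K F w * algebraMap K F w⁻¹) = 0 := by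
      rw [RedData.rd_mul (RedData.algebraMap_mem hwA) (RedData.algebraMap_mem h'),
        RedData.rd_algebraMap hwA, hwr, map_zero, zero_mul]
    rw [← map_mul, mul_inv_cancel₀ hw0, map_one, RedData.rd_one] at h2
    exact one_ne_zero h2
  have hW : IsW (ofRed D w h₀) p w := ⟨hp, h₀, hw⟩
  have hπ' : (ofRed D w h₀).Sm π' := ofRed_sm_of_ra D w h₀ hπ0 hπA hπr
  have hcg : (ofRed D w h₀).Cg (w ^ p * π') u 1 := ⟨f, hf, hu⟩
  have hsm : (ofRed D w h₀).Sm (w ^ p * π') := (hW.2.1.pow hp.pos).mul hπ'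
  have hrdN : (ofRed D w h₀).rd u = 1 := by
    rw [hcg.rd_eq hsm (ofRed D w h₀).O.one_mem, ND.rd_one]
  have hrd : D.rd u = 1 := by rw [← ofRed_rd D w h₀]; exact hrdN
  have hu0 : u ≠ 0 := ND.ne_zero_of_rd_eq_one hrdN
  obtain ⟨-, e, he1, he2, he3⟩ := all_LocTriv K F k Fb D t hCt hBt u p hp.pos hrd hL
  have hBT : BTc (ofRed D w h₀) t u p :=
    all_BT K F k Fb D t hCt.t_mem hCt'.t_mem hCt.trans hCt.fin u p hu0 hp.pos _ e he1 he2 he3
  have htr : Transcendental K t := (stmt_Gauss K F k Fb D t hCt.t_mem hCt.trans).2.2.2.1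
  have hCst : Cst K t := fun z hz hz' => stmt_Const K F t z htr hCt.fin hz hz'
  exact hC K F Fb (ofRed D w h₀) t u p w hW (ofRed_arch D w h₀ hArch) hrdN hBT hCst
    (D9_chart h1 h3 hBA hCl D w h₀ t hCt hBt hArch p w π' u hW hπ' hcg hrd hL)
    (D9_chart h1 h3 hBA hCl D w h₀ t⁻¹ hCt' hBt' hArch p w π' u hW hπ' hcg hrd hL')

end Fermat.Agent.INJ.Deep
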