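import Fermat.Agent.INJ.Deep.InstInterface
import Fermat.Agent.INJ.Inst.Descent

/-!
# INJ / Deep / DEEP-12 : deep Claim K at all levels prime to `p`, `p` odd
(descent from the level `lcm(N, 2)`)
-/

set_option autoImplicit false
set_option synthInstance.maxHeartbeats 400000
set_option linter.style.haveILetI false

noncomputable section

namespace Fermat.Agent.INJ.Deep

open AlgebraicCurve ModularCurve IntermediateField Polynomial
open Fermat.Agent.INJ.Inst (Qb FL kA IsGauss)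
open Fermat.Agent.INJ.Inst.Descent

/-- the underlying series of the element `1 + c (a / b)`. -/
theorem D12_coe (N : ℕ) (c : Qb) (a b : FL N) :
    ((1 + algebraMap Qb (FL N) c * (a / b) : FL N) : LaurentSeries Qb)
      = 1 + algebraMap Qb (LaurentSeries Qb) c * ((a : LaurentSeries Qb) / (b : LaurentSeries Qb)) := by
  rw [IntermediateField.coe_add, IntermediateField.coe_one, IntermediateField.coe_mul,
    IntermediateField.coe_div, IntermediateField.coe_algebraMap_apply]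

theorem D12_step {N N' : ℕ} [NeZero N] [NeZero N'] (hNN' : N ∣ N') (p : ℕ)
    (A : ValuationSubring Qb) (hK : Stmt_DeepK_at N' p A) (w π' : Qb)
    (hw : w ^ (p - 1) = -(p : Qb)) (hπ : π' ∈ A) (hπ' : π'⁻¹ ∉ A) (y₂ y₃ : LaurentSeries A)
    (h₂ : coeffMap A.subtype y₂ ∈ modularFunctionFieldBar N)
    (h₃ : coeffMap A.subtype y₃ ∈ modularFunctionFieldBar N)
    (hne : coeffMap (IsLocalRing.residue A) y₂ ≠ 0)
    (hdiv : ∀ P : Place Qb (FL N), (p : ℤ) ∣
      P.ord (1 + algebraMap Qb (FL N) (w ^ p * π') * ((⟨_, h₃⟩ : FL N) / ⟨_, h₂⟩))) :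
    ∃ g' : FL N', (g' : LaurentSeries Qb) ^ p =
      ((1 + algebraMap Qb (FL N) (w ^ p * π') * ((⟨_, h₃⟩ : FL N) / ⟨_, h₂⟩) : FL N) :
        LaurentSeries Qb) := by
  have hle := bar_le hNN'
  letI : Algebra (modularFunctionFieldBar N) (modularFunctionFieldBar N') :=
    (IntermediateField.inclusion hle).toRingHom.toAlgebra
  haveI : IsScalarTower Qb (modularFunctionFieldBar N) (modularFunctionFieldBar N') :=
    IsScalarTower.of_algebraMap_eq (fun x => rfl)
  obtain ⟨g', hg'⟩ := hK w π' hw hπ hπ' y₂ y₃ (hle h₂) (hle h₃) hne (fun P' => by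
      have h := places_dvd (K := Qb) (F' := modularFunctionFieldBar N') (p : ℤ) _ hdiv P'
      rw [map_add, map_one, map_mul, map_div₀, ← IsScalarTower.algebraMap_apply] at h
      exact h)
  refine ⟨g', ?_⟩
  have h1 := congrArg Subtype.val hg'
  rw [D12_coe]
  rw [← IntermediateField.coe_pow]
  refine h1.trans ?_
  exact D12_coe N' _ _ _

theorem D12_not_dvd_lcm {N p : ℕ} (hp : p.Prime) (hp2 : p ≠ 2) (hpN : ¬ p ∣ N) :
    ¬ p ∣ N.lcm 2 := by
  intro h
  have h1 : p ∣ N * 2 := h.trans (Nat.lcm_dvd_mul N 2)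
  rcases (Nat.Prime.dvd_mul hp).1 h1 with h2 | h2
  · exact hpN h2
  · exact hp2 ((Nat.prime_dvd_prime_iff_eq hp Nat.prime_two).1 h2)

/-- DEEP-12. -/
theorem stmt_DeepK (hM : Stmt_DeepKM) (hC : Stmt_Cube) : Stmt_DeepK := by
  intro N _ p _ hp2 hpN A hA w π' hw hπ hπ' y₂ y₃ h₂ h₃ hne hdiv
  have hp := (Fact.out : p.Prime)
  haveI h2ne : NeZero (N.lcm 2) := ⟨Nat.lcm_ne_zero (NeZero.ne N) two_ne_zero⟩
  have hNN' : N ∣ N.lcm 2 := Nat.dvd_lcm_left N 2
  have hpN' : ¬ p ∣ N.lcm 2 := D12_not_dvd_lcm hp hp2 hpN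
  have hle := bar_le hNN'
  obtain ⟨g', hg'⟩ := D12_step hNN' p A
    (hM 2 (N.lcm 2) p (Or.inl rfl) (Nat.dvd_lcm_right N 2) hpN' A hA) w π' hw hπ hπ' y₂ y₃ h₂ h₃
    hne hdiv
  generalize (1 + algebraMap Qb (FL N) (w ^ p * π') * ((⟨_, h₃⟩ : FL N) / ⟨_, h₂⟩) : FL N) = u
    at hg' ⊢
  by_cases hp3 : p = 3
  · have h3 : ((g' : FL (N.lcm 2)) : LaurentSeries Qb) ^ 3 = (u : LaurentSeries Qb) := by
      rw [← hp3]; exact hg'
    have hmem := hC N (u : LaurentSeries Qb) (g' : LaurentSeries Qb) u.2 g'.2 h3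
    refine ⟨⟨g', hmem⟩, Subtype.ext ?_⟩
    rw [IntermediateField.coe_pow]
    exact hg'
  · have s2 := exists_pow_eq_pow_relfinrank hle p u g' hg'
    have hd2 := relfinrank_lcm_dvd N Nat.prime_two
    refine exists_pow_of_coprime u p _ p hp.ne_zero ?_ s2 ⟨u, rfl⟩
    refine Nat.Coprime.coprime_dvd_left hd2 ?_
    exact (Nat.coprime_primes Nat.prime_three hp).2 (Ne.symm hp3)

end Fermat.Agent.INJ.Deep

end
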