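import Fermat.Agent.INJ.Deep.InstInterface
import Fermat.Agent.INJ.Inst.AllInst

/-!
# INJ / Deep / DEEP-11 : deep Claim K at the levels divisible by `M ∈ {2, 3}`  (helper50, task 887)
-/

set_option autoImplicit false
set_option synthInstance.maxHeartbeats 400000

noncomputable section

namespace Fermat.Agent.INJ.Deep

open AlgebraicCurve ModularCurve IntermediateField Polynomial
open Fermat.Agent
open Fermat.Agent.INJ.Inst

/-- `w ^ (p - 1) = - p` forces `w ∈ A`, `w⁻¹ ∉ A`. -/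
theorem D11_w_mem {p : ℕ} (A : ValuationSubring Qb) (hA : A.LiesOverPrime p) {w : Qb}
    (hw : w ^ (p - 1) = -(p : Qb)) : w ∈ A ∧ w⁻¹ ∉ A := by
  have hp : A.valuation (p : Qb) < 1 := (ValuationSubring.mem_nonunits_iff A).1 hA
  have h1 : A.valuation w < 1 := by
    by_contra h
    push Not at h
    have h2 : 1 ≤ A.valuation w ^ (p - 1) := one_le_pow₀ h
    rw [← map_pow, hw, Valuation.map_neg] at h2
    exact absurd hp (not_lt.2 h2)
  refine ⟨(A.valuation_le_one_iff w).1 h1.le, fun h => ?_⟩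
  have h3 := (A.valuation_le_one_iff _).2 h
  have hw0 : A.valuation w ≠ 0 := by
    intro h0
    rw [map_inv₀, h0, inv_zero] at h3
    have hw0 : w = 0 := (map_eq_zero _).1 h0
    have hp1 : p - 1 ≠ 0 := by
      intro hp1
      rw [hp1, pow_zero] at hw
      have h5 : A.valuation (1 : Qb) = A.valuation (-(p : Qb)) := by rw [hw]
      rw [map_one, Valuation.map_neg] at h5
      exact absurd hp (by rw [← h5]; exact lt_irrefl _)
    rw [hw0, zero_pow hp1] at hw
    have hp0 : (p : Qb) = 0 := by simpa using hw.symm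
    have hp00 : p = 0 := by exact_mod_cast hp0
    omega
  have h4 : A.valuation w * A.valuation w⁻¹ = 1 := by
    rw [map_inv₀, mul_inv_cancel₀ hw0]
  have h5 : A.valuation w * A.valuation w⁻¹ < 1 := by
    calc A.valuation w * A.valuation w⁻¹ ≤ A.valuation w * 1 := by gcongr
      _ = A.valuation w := mul_one _
      _ < 1 := h1
  rw [h4] at h5
  exact lt_irrefl _ h5

/-- DEEP-11. -/
theorem stmt_DeepKM (hDA : Stmt_DeepA) : Stmt_DeepKM := by
  intro M N _ p _ hM hMN hpN A hA w π' hw hπ hπ' y₂ y₃ h₂ h₃ hne hdiv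
  obtain ⟨L, D, hD⟩ := stmt_ExGauss N p A hA
  have hN0 : N ≠ 0 := NeZero.ne N
  have htmem : tS M N Qb ∈ modularFunctionFieldBar N := tS_mem_bar hM hN0 hMN
  obtain ⟨t, ht⟩ : ∃ t : FL N, (t : LaurentSeries Qb) = tS M N Qb := ⟨⟨_, htmem⟩, rfl⟩
  have hC : Chart D t := all_ChartT M N p hM hMN hpN A hA L D hD t ht
  have hC' : Chart D t⁻¹ := stmt_ChartInv _ _ _ _ D t hC
  obtain ⟨hB, hB'⟩ := all_BranchT M N p hM hMN hpN A hA L D hD t ht
  have hArch : Arch D := AR36_stmt_ArchD N p A hA L D hD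
  obtain ⟨h3O, -⟩ := hD.rd y₃ h₃
  obtain ⟨h2O, h2r⟩ := hD.rd y₂ h₂
  have h2ne : D.rd (⟨_, h₂⟩ : FL N) ≠ 0 := by
    intro h0
    apply hne
    rw [← h2r, h0]
    rfl
  have hfO : ((⟨_, h₃⟩ : FL N) / ⟨_, h₂⟩) ∈ D.O := RedData.div_mem h3O h2ne
  obtain ⟨hwA, hwA'⟩ := D11_w_mem A hA hw
  have hwD : w ∈ D.A := by rw [hD.hA]; exact hwA
  have hwr : D.ra w = 0 := ra_eq_zero_of_inv_not_mem D hwD (by rw [hD.hA]; exact hwA')
  have hπD : π' ∈ D.A := by rw [hD.hA]; exact hπ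
  have hπr : D.ra π' = 0 := ra_eq_zero_of_inv_not_mem D hπD (by rw [hD.hA]; exact hπ')
  have hπ0 : π' ≠ 0 := by
    rintro rfl
    apply hπ'
    rw [inv_zero]
    exact A.zero_mem
  have hp : p.Prime := Fact.out
  -- the reduction of `u` is `1`
  have hcD : w ^ p * π' ∈ D.A := mul_mem (pow_mem hwD p) hπD
  have hcr : D.rd (algebraMap Qb (FL N) (w ^ p * π')) = 0 := by
    rw [map_mul, RedData.rd_mul (RedData.algebraMap_mem (pow_mem hwD p))
      (RedData.algebraMap_mem hπD), RedData.rd_algebraMap hπD, hπr, map_zero, mul_zero]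
  have hu : D.rd (1 + algebraMap Qb (FL N) (w ^ p * π') * ((⟨_, h₃⟩ : FL N) / ⟨_, h₂⟩)) = 1 := by
    rw [RedData.rd_add D.O.one_mem (mul_mem (RedData.algebraMap_mem hcD) hfO),
      RedData.rd_mul (RedData.algebraMap_mem hcD) hfO, hcr, zero_mul, add_zero, RedData.rd_one]
  have hu0 : (1 + algebraMap Qb (FL N) (w ^ p * π') * ((⟨_, h₃⟩ : FL N) / ⟨_, h₂⟩)) ≠ 0 := by
    intro h0
    rw [h0, RedData.rd_zero] at hu
    exact zero_ne_one hu
  have htr : Transcendental Qb t :=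
    Final_transcendental t (by rw [ht]; exact transcendental_tS Qb hN0 hMN)
  have hL := stmt_LocPow Qb (FL N) t _ p htr hC.fin hu0 hp.pos hdiv
  have hL' := stmt_LocPow Qb (FL N) t⁻¹ _ p (Final_transcendental_inv htr) hC'.fin hu0 hp.pos hdiv
  exact hDA Qb (FL N) (kA A) L D t hC hC' hB hB' hArch p w π' _ _ hp hw hwD hwr hπ0 hπD hπr hfO
    rfl hL hL'

end Fermat.Agent.INJ.Deep

end
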