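import Fermat.Agent.INJ.Deep.SInterface
import Fermat.Agent.BR.Inv.S12
import Fermat.Agent.BR.Inv.S9

/-!
# INJ / Deep, DEEP-18 : assembly of Theorem D'' in its abstract form (`Stmt_DeepS`)
-/

set_option autoImplicit false

namespace Fermat.Agent.INJ.Deep

open Polynomial IntermediateField
open Fermat.Agent.BR.Inv (SData SChart SN SArch SEndo AlgSetting Sp IsIntE)

/-- the deep section of `U = s u / u ^ a` on one chart. -/
theorem D18_chart (hT : Stmt_Twist) (hBA : Stmt_BAS) (hCl : Stmt_Cl1S) (hTr : Stmt_TrivPS)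
    {K F k E : Type} [Field K] [Field F] [Algebra K F] [Field k] [CommRing E] [Algebra k E]
    [IsAlgClosed K] [CharZero K] [IsAlgClosed k] [Nontrivial E] (S : SData K F k E) (w₀ : K)
    (h₀ : w₀ ∈ S.A ∧ w₀⁻¹ ∉ S.A) (t : F) (hCh : SChart S t) (hSN : SN S t) (hArch : SArch S)
    (p : ℕ) (w π' π'' a' : K) (a : ℕ) (s : F ≃+* F) (u : F) (hpk : (p : k) = 0)
    (hW : IsW (ofS S w₀ h₀) p w) (hπ' : (ofS S w₀ h₀).Sm π')
    (hu : (ofS S w₀ h₀).Cg (w ^ p * π') u 1) (hπ'' : (ofS S w₀ h₀).Sm π'')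
    (hsu : (ofS S w₀ h₀).Cg (w ^ p * π'') (s u) 1)
    (hsK : ∀ c : K, ∃ c' : K, (s : F →+* F) (algebraMap K F c) = algebraMap K F c')
    (hst : (s : F →+* F) t = t)
    (hsO : ∀ x ∈ (ofS S w₀ h₀).O, s x ∈ (ofS S w₀ h₀).O ∧
      (ofS S w₀ h₀).rd (s x) = (ofS S w₀ h₀).rd x)
    (ha'A : a' ∈ S.A) (ha'r : (ofS S w₀ h₀).rd (algebraMap K F a') = (a : E))
    (hsw : s (algebraMap K F w) = algebraMap K F (a' * w)) (hrd : S.rd u = 1)
    (hLP : LocPow K t u p) :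
    ∃ (π : K) (X : F), (ofS S w₀ h₀).Sm π ∧
      DeepSec (ofS S w₀ h₀) t (s u * (u ^ a)⁻¹) p w π X := by
  obtain ⟨hx, hx'⟩ := hTr K F k E S t hCh hSN p u hW.1 hpk hrd hLP
  refine hT K F E (ofS S w₀ h₀) t u p w π' π'' a' a s hW hπ' hu hπ'' hsu (ofS_arch S w₀ h₀ hArch)
    (hBA K F k E S w₀ h₀ t hCh hSN) (hCl K F k E S w₀ h₀ t hCh hSN p hW.1 hpk) hsO
    (fun x hx => BR.Inv.S9_map_int t (s : F →+* F) hst hsK hx) ha'A ha'r hsw ?_ ?_
  · obtain ⟨x, h1, h2, h3⟩ := hx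
    exact ⟨x, h1, by rw [ofS_rd]; exact h2, h3⟩
  · obtain ⟨x, h1, h2, h3⟩ := hx'
    exact ⟨x, h1, by rw [ofS_rd]; exact h2, h3⟩

theorem stmt_DeepS (hT : Stmt_Twist) (hC : Stmt_Core) (hBA : Stmt_BAS) (hCl : Stmt_Cl1S)
    (hTr : Stmt_TrivPS) (h1 : BR.Inv.Stmt_SGauss) (h6 : BR.Inv.Stmt_SBasis)
    (h10 : BR.Inv.Stmt_SBT) (h13 : BR.Inv.Stmt_SChartInv) (hL : INJ.Stmt_MLattice)
    (hK : INJ.Stmt_Const) : Stmt_DeepS := by
  intro K F k E _ _ _ _ _ _ _ _ _ S t hCh hSN hSN' hArch p w π' a' a s u f hp hw hwA hwr hπ0 hπA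
    hπr hf hu hs ha'A ha'r hsw hLP hLP'
  have hnt := S.nontrivial
  have hCh' : SChart S t⁻¹ := h13 K F k E S t hCh
  have hw0 : w ≠ 0 := by
    rintro rfl
    rw [zero_pow (by have := hp.two_le; omega)] at hw
    have h0 : (p : K) = 0 := by linear_combination hw
    exact hp.ne_zero (by exact_mod_cast h0)
  have h₀ : w ∈ S.A ∧ w⁻¹ ∉ S.A :=
    ⟨hwA, fun h' => SData.ra_ne_zero_of_inv_mem hw0 hwA h' hwr⟩
  have hW : IsW (ofS S w h₀) p w := ⟨hp, h₀, hw⟩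
  have hpk : (p : k) = 0 := by
    have e1 : S.ra (w ^ (p - 1)) = 0 := by
      rw [SData.ra_pow hwA, hwr, zero_pow (by have := hp.two_le; omega)]
    have e2 : S.ra (w ^ (p - 1) + (p : K)) = 0 := by rw [hw, neg_add_cancel, SData.ra_zero]
    rw [SData.ra_add (pow_mem hwA _) (BR.Inv.S12_natCast p).1, e1, zero_add,
      (BR.Inv.S12_natCast p).2] at e2
    exact e2
  have hπ' : (ofS S w h₀).Sm π' := ofS_sm_of_ra S w h₀ hπ0 hπA hπr
  have hcg : (ofS S w h₀).Cg (w ^ p * π') u 1 := ⟨f, hf, hu⟩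
  have hsm : (ofS S w h₀).Sm (w ^ p * π') := (hW.2.1.pow hp.pos).mul hπ'
  have hrdN : (ofS S w h₀).rd u = 1 := by
    rw [hcg.rd_eq hsm (ofS S w h₀).O.one_mem, ND.rd_one]
  have hrd : S.rd u = 1 := by rw [← ofS_rd S w h₀]; exact hrdN
  -- the constant `π'' = s π'`
  obtain ⟨c', hc'⟩ := hs.map_K π'
  have hc'' : s (algebraMap K F π') = algebraMap K F c' := hc'
  have hc0 : c' ≠ 0 := by
    rintro rfl
    rw [map_zero] at hc''
    exact hπ0 ((_root_.map_eq_zero _).1 ((_root_.map_eq_zero s).1 hc''))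
  have hcO : algebraMap K F c' ∈ S.O := by
    rw [← hc']; exact hs.mem _ (SData.algebraMap_mem hπA)
  have hcA : c' ∈ S.A := (S.mem_iff c').1 hcO
  have hcr : S.ra c' = 0 := by
    have e1 : S.rd (algebraMap K F c') = 0 := by
      rw [← hc', hs.rd _ (SData.algebraMap_mem hπA), SData.rd_algebraMap hπA, hπr, map_zero,
        map_zero]
    rw [SData.rd_algebraMap hcA] at e1
    exact (_root_.map_eq_zero (algebraMap k E)).1 e1
  have hπ'' : (ofS S w h₀).Sm c' := ofS_sm_of_ra S w h₀ hc0 hcA hcr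
  have hsf : s f ∈ S.O := hs.mem f hf
  have hcg' : (ofS S w h₀).Cg (w ^ p * c') (s u) 1 := by
    refine ⟨algebraMap K F a' ^ p * s f, mul_mem (pow_mem (SData.algebraMap_mem ha'A) p) hsf, ?_⟩
    rw [hu, map_add, map_one, map_mul, map_mul, map_mul, map_pow, map_pow, hsw, hc'', map_mul,
      map_mul, map_pow]
    ring
  have hsm' : (ofS S w h₀).Sm (w ^ p * c') := (hW.2.1.pow hp.pos).mul hπ''
  have hrdsN : (ofS S w h₀).rd (s u) = 1 := by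
    rw [hcg'.rd_eq hsm' (ofS S w h₀).O.one_mem, ND.rd_one]
  have hsO : ∀ x ∈ (ofS S w h₀).O, s x ∈ (ofS S w h₀).O ∧
      (ofS S w h₀).rd (s x) = (ofS S w h₀).rd x := by
    intro x hx
    refine ⟨hs.mem x hx, ?_⟩
    rw [ofS_rd, ofS_rd]
    exact hs.rd x hx
  have ha'N : (ofS S w h₀).rd (algebraMap K F a') = (a : E) := by
    rw [ofS_rd, SData.rd_algebraMap ha'A, ha'r, map_natCast]
  have hst' : (s : F →+* F) t⁻¹ = t⁻¹ := by rw [map_inv₀, hs.map_t]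
  -- `U`
  have huaN : (ofS S w h₀).rd (u ^ a) = 1 := by
    rw [ND.rd_pow (ND.mem_of_rd_eq_one hrdN), hrdN, one_pow]
  have hUN : (ofS S w h₀).rd (s u * (u ^ a)⁻¹) = 1 := by
    rw [ND.rd_mul (ND.mem_of_rd_eq_one hrdsN) (ND.inv_mem_of_rd_eq_one huaN), hrdsN,
      ND.rd_inv_of_rd_eq_one huaN, one_mul]
  have hU0 : s u * (u ^ a)⁻¹ ≠ 0 := ND.ne_zero_of_rd_eq_one hUN
  have htrans : Transcendental K t := (h1 K F k E S t hCh.t_mem hCh.unit).2.2.2.1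
  have := hCh.fin
  obtain ⟨Λ, l, hΛ, hlspan, hllin⟩ := hL K F t (s u * (u ^ a)⁻¹) p htrans hCh.fin hU0 hp.pos
  obtain ⟨e, heO, hespan, -, helin, -, -⟩ := h6 K F k E S t hCh Λ l hlspan hllin
  have he : ∀ i, e i ∈ S.O ∧ IsInt K t (e i ^ p * (s u * (u ^ a)⁻¹)) := fun i =>
    ⟨heO i, (hΛ _).1 (by rw [← hespan]; exact Submodule.subset_span ⟨i, rfl⟩)⟩
  have hspan : ∀ x, IsInt K t (x ^ p * (s u * (u ^ a)⁻¹)) →
      x ∈ Submodule.span (Algebra.adjoin K {t}) (Set.range e) := fun x hx => by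
    rw [hespan]; exact (hΛ x).2 hx
  have hBT : BTc (ofS S w h₀) t (s u * (u ^ a)⁻¹) p :=
    h10 K F k E S t hCh.t_mem hCh'.t_mem hCh.unit hCh.fin _ p hU0 hp.pos _ e he hspan helin
  have hCst : Cst K t := fun z hz hz' => hK K F t z htrans hCh.fin hz hz'
  exact hC K F E (ofS S w h₀) t _ p w hW (ofS_arch S w h₀ hArch) hUN hBT hCst
    (D18_chart hT hBA hCl hTr S w h₀ t hCh hSN hArch p w π' c' a' a s u hpk hW hπ' hcg hπ'' hcg'
      hs.map_K hs.map_t hsO ha'A ha'N hsw hrd hLP)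
    (D18_chart hT hBA hCl hTr S w h₀ t⁻¹ hCh' hSN' hArch p w π' c' a' a s u hpk hW hπ' hcg hπ''
      hcg' hs.map_K hst' hsO ha'A ha'N hsw hrd hLP')

end Fermat.Agent.INJ.Deep
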