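import Fermat.Agent.INJ.Defs

/-!
# INJ / Deep : "deep" Claim K (exponent `p` = residue characteristic), definitions + basic API

Setting.  `K` a field with a valuation subring `A`, `F / K` a field, `O ⊆ F` a subring (the unit ball
of a power-multiplicative norm: one Gauss valuation ring, or an intersection of several ones),
`rO : O →+* E` the reduction, whose kernel is `𝔪_A O`.  `D.rd : F → E` is the total reduction map
(junk value `0` outside `O`).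

`D.Sm a`      : `a ∈ 𝔪_A`, `a ≠ 0`.
`D.Cg a x y`  : `x ≡ y mod a O`.
`D.InB t f`   : `f ∈ E` is the reduction of an element of `BB = B ∩ O`, `B` = integral closure of
                `K[t]` in `F`.
-/

set_option autoImplicit false

namespace Fermat.Agent.INJ.Deep

open Polynomial

/-- Normed data: a subring `O` of `F` with a reduction map whose kernel is `𝔪_A O`. -/
structure ND (K F E : Type*) [Field K] [Field F] [Algebra K F] [CommRing E] where
  A : ValuationSubring K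
  O : Subring F
  rO : O →+* E
  alg_mem : ∀ a : K, a ∈ A → algebraMap K F a ∈ O
  small : ∀ (a : K) (y : F), a ∈ A → a⁻¹ ∉ A → y ∈ O →
    ∀ h : algebraMap K F a * y ∈ O, rO ⟨algebraMap K F a * y, h⟩ = 0
  ker : ∀ x : O, rO x = 0 →
    ∃ (a : K) (y : F), a ∈ A ∧ a⁻¹ ∉ A ∧ y ∈ O ∧ (x : F) = algebraMap K F a * y
  unit : ∀ x : O, rO x = 1 → (x : F)⁻¹ ∈ O

section API

variable {K F E : Type*} [Field K] [Field F] [Algebra K F] [CommRing E]
variable (D : ND K F E)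

open Classical in
/-- total reduction map `F → E` (zero outside `O`). -/
noncomputable def ND.rd (x : F) : E := if h : x ∈ D.O then D.rO ⟨x, h⟩ else 0

/-- `a` is a nonzero element of the maximal ideal of `A`. -/
def ND.Sm (a : K) : Prop := a ∈ D.A ∧ a⁻¹ ∉ D.A

/-- `x ≡ y mod a O`. -/
def ND.Cg (a : K) (x y : F) : Prop := ∃ z ∈ D.O, x = y + algebraMap K F a * z

/-- `f` is the reduction of an element of `BB = B ∩ O`. -/
def ND.InB (t : F) (f : E) : Prop := ∃ b ∈ D.O, IsInt K t b ∧ D.rd b = f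

/-- the valuation ring `A` has rank one. -/
def ND.Arch : Prop := ∀ π : K, D.Sm π → ∀ a : K, a ≠ 0 → ∃ n : ℕ, π ^ n * a⁻¹ ∈ D.A

variable {D}

theorem ND.rd_of_mem {x : F} (h : x ∈ D.O) : D.rd x = D.rO ⟨x, h⟩ := dif_pos h

theorem ND.rd_of_not_mem {x : F} (h : x ∉ D.O) : D.rd x = 0 := dif_neg h

@[simp] theorem ND.rd_zero : D.rd 0 = 0 := by
  rw [ND.rd_of_mem D.O.zero_mem]; exact map_zero D.rO

@[simp] theorem ND.rd_one : D.rd 1 = 1 := by
  rw [ND.rd_of_mem D.O.one_mem]; exact map_one D.rO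

theorem ND.rd_add {x y : F} (hx : x ∈ D.O) (hy : y ∈ D.O) :
    D.rd (x + y) = D.rd x + D.rd y := by
  rw [ND.rd_of_mem hx, ND.rd_of_mem hy, ND.rd_of_mem (add_mem hx hy), ← map_add]; rfl

theorem ND.rd_mul {x y : F} (hx : x ∈ D.O) (hy : y ∈ D.O) :
    D.rd (x * y) = D.rd x * D.rd y := by
  rw [ND.rd_of_mem hx, ND.rd_of_mem hy, ND.rd_of_mem (mul_mem hx hy), ← map_mul]; rfl

theorem ND.rd_neg {x : F} (hx : x ∈ D.O) : D.rd (-x) = - D.rd x := by
  rw [ND.rd_of_mem hx, ND.rd_of_mem (neg_mem hx), ← map_neg]; rfl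

theorem ND.rd_sub {x y : F} (hx : x ∈ D.O) (hy : y ∈ D.O) :
    D.rd (x - y) = D.rd x - D.rd y := by
  rw [sub_eq_add_neg, ND.rd_add hx (neg_mem hy), ND.rd_neg hy, sub_eq_add_neg]

theorem ND.rd_pow {x : F} (hx : x ∈ D.O) (n : ℕ) : D.rd (x ^ n) = D.rd x ^ n := by
  rw [ND.rd_of_mem hx, ND.rd_of_mem (pow_mem hx n), ← map_pow]; rfl

theorem ND.natCast_mem (n : ℕ) : (n : F) ∈ D.O := _root_.natCast_mem D.O n

theorem ND.rd_natCast (n : ℕ) : D.rd (n : F) = (n : E) := by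
  rw [ND.rd_of_mem (ND.natCast_mem n)]
  have : (⟨(n : F), ND.natCast_mem n⟩ : D.O) = (n : D.O) := by
    apply Subtype.ext; simp
  rw [this, map_natCast]

theorem ND.mem_of_rd_ne_zero {x : F} (h : D.rd x ≠ 0) : x ∈ D.O := by
  by_contra h'
  exact h (ND.rd_of_not_mem h')

theorem ND.mem_of_rd_eq_one [Nontrivial E] {x : F} (h : D.rd x = 1) : x ∈ D.O :=
  ND.mem_of_rd_ne_zero (by rw [h]; exact one_ne_zero)

theorem ND.ne_zero_of_rd_eq_one [Nontrivial E] {x : F} (h : D.rd x = 1) : x ≠ 0 := by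
  rintro rfl
  rw [ND.rd_zero] at h
  exact zero_ne_one h

/-- an element with reduction `1` is a unit of `O`. -/
theorem ND.inv_mem_of_rd_eq_one [Nontrivial E] {x : F} (h : D.rd x = 1) : x⁻¹ ∈ D.O := by
  have hx := ND.mem_of_rd_eq_one h
  rw [ND.rd_of_mem hx] at h
  exact D.unit ⟨x, hx⟩ h

theorem ND.rd_inv_of_rd_eq_one [Nontrivial E] {x : F} (h : D.rd x = 1) : D.rd x⁻¹ = 1 := by
  have hx := ND.mem_of_rd_eq_one h
  have hx' := ND.inv_mem_of_rd_eq_one h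
  have h1 : D.rd x * D.rd x⁻¹ = 1 := by
    rw [← ND.rd_mul hx hx', mul_inv_cancel₀ (ND.ne_zero_of_rd_eq_one h), ND.rd_one]
  rwa [h, one_mul] at h1

theorem ND.Sm.ne_zero {a : K} (h : D.Sm a) : a ≠ 0 := by
  rintro rfl
  exact h.2 (by rw [inv_zero]; exact D.A.zero_mem)

theorem ND.Sm.mem {a : K} (h : D.Sm a) : a ∈ D.A := h.1

theorem ND.Sm.algebraMap_mem {a : K} (h : D.Sm a) : algebraMap K F a ∈ D.O := D.alg_mem a h.1

theorem ND.Sm.algebraMap_ne_zero {a : K} (h : D.Sm a) : algebraMap K F a ≠ 0 :=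
  (_root_.map_ne_zero _).2 h.ne_zero

/-- `𝔪_A` is an ideal. -/
theorem ND.Sm.mul_left {a c : K} (h : D.Sm a) (hc : c ∈ D.A) (hc0 : c ≠ 0) : D.Sm (c * a) := by
  refine ⟨mul_mem hc h.1, fun h' => h.2 ?_⟩
  have : a⁻¹ = c * (c * a)⁻¹ := by
    rw [mul_inv]; field_simp
  rw [this]; exact mul_mem hc h'

theorem ND.Sm.mul {a c : K} (h : D.Sm a) (hc : D.Sm c) : D.Sm (a * c) := by
  rw [mul_comm]; exact h.mul_left hc.1 hc.ne_zero

theorem ND.Sm.pow {a : K} (h : D.Sm a) {n : ℕ} (hn : 0 < n) : D.Sm (a ^ n) := by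
  induction n with
  | zero => exact absurd hn (lt_irrefl 0)
  | succ n ih =>
    rcases Nat.eq_zero_or_pos n with rfl | hn'
    · simpa using h
    · rw [pow_succ]; exact (ih hn').mul h

/-- for `a ≠ 0` not in `𝔪_A`, the inverse lies in `A`. -/
theorem ND.inv_mem_of_not_sm {a : K} (h : ¬ D.Sm a) : a⁻¹ ∈ D.A := by
  by_contra h'
  exact h ⟨(D.A.mem_or_inv_mem a).resolve_right h', h'⟩

/-- multiples of small constants reduce to zero. -/
theorem ND.rd_small {a : K} {y : F} (ha : D.Sm a) (hy : y ∈ D.O) :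
    D.rd (algebraMap K F a * y) = 0 := by
  have h : algebraMap K F a * y ∈ D.O := mul_mem ha.algebraMap_mem hy
  rw [ND.rd_of_mem h]
  exact D.small a y ha.1 ha.2 hy h

/-- the kernel of the reduction is `𝔪_A O`. -/
theorem ND.exists_of_rd_eq_zero {x : F} (hx : x ∈ D.O) (h : D.rd x = 0) :
    ∃ (a : K) (y : F), D.Sm a ∧ y ∈ D.O ∧ x = algebraMap K F a * y := by
  rw [ND.rd_of_mem hx] at h
  obtain ⟨a, y, h1, h2, h3, h4⟩ := D.ker ⟨x, hx⟩ h
  exact ⟨a, y, ⟨h1, h2⟩, h3, h4⟩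

/-- of two nonzero constants one divides the other. -/
theorem ND.exists_common {a c : K} (ha : D.Sm a) (hc : D.Sm c) :
    ∃ e : K, D.Sm e ∧ a * e⁻¹ ∈ D.A ∧ c * e⁻¹ ∈ D.A := by
  rcases D.A.mem_or_inv_mem (a * c⁻¹) with h | h
  · exact ⟨c, hc, h, by rw [mul_inv_cancel₀ hc.ne_zero]; exact D.A.one_mem⟩
  · refine ⟨a, ha, by rw [mul_inv_cancel₀ ha.ne_zero]; exact D.A.one_mem, ?_⟩
    have : c * a⁻¹ = (a * c⁻¹)⁻¹ := by rw [mul_inv, inv_inv, mul_comm]
    rw [this]; exact h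

/-! ### congruences -/

theorem ND.Cg.refl (a : K) (x : F) : D.Cg a x x := ⟨0, D.O.zero_mem, by simp⟩

theorem ND.Cg.symm {a : K} {x y : F} (h : D.Cg a x y) : D.Cg a y x := by
  obtain ⟨z, hz, rfl⟩ := h
  exact ⟨-z, neg_mem hz, by ring⟩

theorem ND.Cg.trans {a : K} {x y z : F} (h : D.Cg a x y) (h' : D.Cg a y z) : D.Cg a x z := by
  obtain ⟨u, hu, rfl⟩ := h
  obtain ⟨v, hv, rfl⟩ := h'
  exact ⟨u + v, add_mem hu hv, by ring⟩

/-- weaken the modulus: `a = c * e` with `e ∈ A`. -/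
theorem ND.Cg.mono {a c : K} {x y : F} (h : D.Cg a x y) (hc : c ≠ 0) (hac : a * c⁻¹ ∈ D.A) :
    D.Cg c x y := by
  obtain ⟨z, hz, rfl⟩ := h
  refine ⟨algebraMap K F (a * c⁻¹) * z, mul_mem (D.alg_mem _ hac) hz, ?_⟩
  have hc' : algebraMap K F c ≠ 0 := (_root_.map_ne_zero _).2 hc
  rw [map_mul, map_inv₀]; field_simp

theorem ND.Cg.add {a : K} {x y x' y' : F} (h : D.Cg a x y) (h' : D.Cg a x' y') :
    D.Cg a (x + x') (y + y') := by
  obtain ⟨u, hu, rfl⟩ := h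
  obtain ⟨v, hv, rfl⟩ := h'
  exact ⟨u + v, add_mem hu hv, by ring⟩

theorem ND.Cg.mul_left {a : K} {x y : F} (h : D.Cg a x y) {c : F} (hc : c ∈ D.O) :
    D.Cg a (c * x) (c * y) := by
  obtain ⟨u, hu, rfl⟩ := h
  exact ⟨c * u, mul_mem hc hu, by ring⟩

theorem ND.Cg.mul {a : K} {x y x' y' : F} (h : D.Cg a x y) (h' : D.Cg a x' y') (hy : y ∈ D.O)
    (hx' : x' ∈ D.O) : D.Cg a (x * x') (y * y') := by
  obtain ⟨u, hu, rfl⟩ := h
  obtain ⟨v, hv, hv'⟩ := h'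
  refine ⟨u * x' + y * v, add_mem (mul_mem hu hx') (mul_mem hy hv), ?_⟩
  rw [mul_add, ← mul_assoc, ← mul_assoc, mul_comm (algebraMap K F a) y, mul_assoc y, add_mul,
    ← add_assoc]
  nth_rewrite 1 [hv']
  ring

theorem ND.Cg.mem {a : K} {x y : F} (h : D.Cg a x y) (ha : a ∈ D.A) (hy : y ∈ D.O) : x ∈ D.O := by
  obtain ⟨u, hu, rfl⟩ := h
  exact add_mem hy (mul_mem (D.alg_mem a ha) hu)

theorem ND.Cg.rd_eq {a : K} {x y : F} (h : D.Cg a x y) (ha : D.Sm a) (hy : y ∈ D.O) :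
    D.rd x = D.rd y := by
  obtain ⟨u, hu, rfl⟩ := h
  rw [ND.rd_add hy (mul_mem ha.algebraMap_mem hu), ND.rd_small ha hu, add_zero]

/-- division form of a congruence (the form used in `INJ.Stmt_BT`). -/
theorem ND.cg_iff {a : K} (ha : a ≠ 0) {x y : F} :
    D.Cg a x y ↔ (x - y) * (algebraMap K F a)⁻¹ ∈ D.O := by
  have ha' : algebraMap K F a ≠ 0 := (_root_.map_ne_zero _).2 ha
  constructor
  · rintro ⟨z, hz, rfl⟩
    have : (y + algebraMap K F a * z - y) * (algebraMap K F a)⁻¹ = z := by field_simp; ring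
    rw [this]; exact hz
  · intro h
    exact ⟨_, h, by field_simp; ring⟩

/-- same reduction ⟹ congruent modulo a small constant. -/
theorem ND.exists_cg_of_rd_eq {x y : F} (hx : x ∈ D.O) (hy : y ∈ D.O) (h : D.rd x = D.rd y) :
    ∃ a : K, D.Sm a ∧ D.Cg a x y := by
  obtain ⟨a, z, ha, hz, e⟩ := ND.exists_of_rd_eq_zero (sub_mem hx hy)
    (by rw [ND.rd_sub hx hy, h, sub_self])
  exact ⟨a, ha, z, hz, by rw [← e]; ring⟩

/-! ### `InB` -/

theorem isInt_algebraMap (t : F) (a : K) : IsInt K t (algebraMap K F a) := by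
  unfold IsInt
  rw [IsScalarTower.algebraMap_apply K (Algebra.adjoin K {t}) F]
  exact isIntegral_algebraMap

theorem isInt_one (t : F) : IsInt K t (1 : F) := isIntegral_one

theorem isInt_zero (t : F) : IsInt K t (0 : F) := isIntegral_zero

theorem isInt_natCast (t : F) (n : ℕ) : IsInt K t (n : F) := by
  have := isInt_algebraMap (K := K) t (n : K)
  rwa [map_natCast] at this

theorem ND.InB.zero (t : F) : D.InB t 0 := ⟨0, D.O.zero_mem, isInt_zero t, ND.rd_zero⟩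

theorem ND.InB.one (t : F) : D.InB t 1 := ⟨1, D.O.one_mem, isInt_one t, ND.rd_one⟩

theorem ND.InB.add {t : F} {f g : E} (hf : D.InB t f) (hg : D.InB t g) : D.InB t (f + g) := by
  obtain ⟨b, hb, hbI, rfl⟩ := hf
  obtain ⟨c, hc, hcI, rfl⟩ := hg
  exact ⟨b + c, add_mem hb hc, IsIntegral.add hbI hcI, ND.rd_add hb hc⟩

theorem ND.InB.mul {t : F} {f g : E} (hf : D.InB t f) (hg : D.InB t g) : D.InB t (f * g) := by
  obtain ⟨b, hb, hbI, rfl⟩ := hf
  obtain ⟨c, hc, hcI, rfl⟩ := hg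
  exact ⟨b * c, mul_mem hb hc, IsIntegral.mul hbI hcI, ND.rd_mul hb hc⟩

theorem ND.InB.neg {t : F} {f : E} (hf : D.InB t f) : D.InB t (-f) := by
  obtain ⟨b, hb, hbI, rfl⟩ := hf
  exact ⟨-b, neg_mem hb, IsIntegral.neg hbI, ND.rd_neg hb⟩

/-- if `a ≠ 0` and `a * y` is integral then so is `y`. -/
theorem isInt_of_smul {t y : F} {a : K} (ha : a ≠ 0) (h : IsInt K t (algebraMap K F a * y)) :
    IsInt K t y := by
  have ha' : algebraMap K F a ≠ 0 := (_root_.map_ne_zero _).2 ha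
  have : y = algebraMap K F a⁻¹ * (algebraMap K F a * y) := by
    rw [map_inv₀]; field_simp
  rw [this]
  exact IsIntegral.mul (isInt_algebraMap t _) h

end API

/-! ### hypotheses on one chart -/

section Hyp

variable {K F E : Type*} [Field K] [Field F] [Algebra K F] [CommRing E]

/-- Best approximation by `BB` (up to a factor `q ∈ BB`, `q ≡ 1`). -/
def BA (D : ND K F E) (t : F) : Prop :=
  ∀ x ∈ D.O, ∃ q b : F, q ∈ D.O ∧ IsInt K t q ∧ D.rd q = 1 ∧ b ∈ D.O ∧ IsInt K t b ∧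
    (q * x = b ∨ ∃ (a : K) (y : F), a ≠ 0 ∧ y ∈ D.O ∧ q * x = b + algebraMap K F a * y ∧
      ¬ D.InB t (D.rd y))

/-- `Bbar` is closed under `p`-th roots. -/
def Cl1 (D : ND K F E) (t : F) (p : ℕ) : Prop := ∀ f : E, D.InB t (f ^ p) → D.InB t f

/-- `Bbar` is closed under Artin–Schreier roots. -/
def Cl2 (D : ND K F E) (t : F) (p : ℕ) : Prop := ∀ f : E, D.InB t (f ^ p - f) → D.InB t f

/-- the conclusion of `INJ.Stmt_BT` (bounded torsion of `H¹`), for `ND`. -/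
def BTc (D : ND K F E) (t u : F) (m : ℕ) : Prop :=
  ∃ a₀ : K, a₀ ≠ 0 ∧ a₀ ∈ D.A ∧
    ∀ (x x' : F) (a : K), a ≠ 0 → x ∈ D.O → IsInt K t (x ^ m * u) → x' ∈ D.O →
      IsInt K t⁻¹ (x' ^ m * u) → (x' - x) * (algebraMap K F a)⁻¹ ∈ D.O →
      ∃ μ μ' : F, μ ∈ D.O ∧ IsInt K t (μ ^ m * u) ∧ μ' ∈ D.O ∧ IsInt K t⁻¹ (μ' ^ m * u) ∧
        algebraMap K F a₀ * ((x' - x) * (algebraMap K F a)⁻¹) = μ + μ'

variable (K) in
/-- `B ∩ B' = K`. -/
def Cst (t : F) : Prop :=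
  ∀ z : F, IsInt K t z → IsInt K t⁻¹ z → ∃ c : K, z = algebraMap K F c

/-- a "deep" section of `M(u)` on the chart `t`: `x ∈ M`, `x ≡ 1 mod w π`,
`x ^ p u ≡ 1 mod w ^ p π`. -/
def DeepSec (D : ND K F E) (t u : F) (p : ℕ) (w π : K) (x : F) : Prop :=
  x ∈ D.O ∧ IsInt K t (x ^ p * u) ∧ D.Cg (w * π) x 1 ∧ D.Cg (w ^ p * π) (x ^ p * u) 1

end Hyp

end Fermat.Agent.INJ.Deep
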