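import Fermat.Agent.INJ.Deep.Interface
import Fermat.Agent.INJ.Inst.Interface

/-!
# INJ / Deep : Theorem A at the modular function fields `FL N`, `p ∤ N` (statements)

Ratio form: `u = 1 + w ^ p π' (y₃ / y₂)`, `y₂, y₃ ∈ A((q)) ∩ FL N`, `y₂` with nonzero reduction,
`w ^ (p - 1) = - p`, `π' ∈ 𝔪_A`, `π' ≠ 0`.  If the divisor of `u` is divisible by `p` then `u` is a
`p`-th power in `FL N`.
-/

set_option autoImplicit false

noncomputable section

namespace Fermat.Agent.INJ.Deep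

open AlgebraicCurve ModularCurve IntermediateField Polynomial
open Fermat.Agent.INJ.Inst (Qb FL kA IsGauss)

/-- deep Claim K at level `N`, residue characteristic `p` = exponent, ratio form. -/
def Stmt_DeepK_at (N p : ℕ) (A : ValuationSubring Qb) : Prop :=
  ∀ w π' : Qb, w ^ (p - 1) = -(p : Qb) → π' ∈ A → π'⁻¹ ∉ A →
  ∀ (y₂ y₃ : LaurentSeries A)
    (h₂ : coeffMap A.subtype y₂ ∈ modularFunctionFieldBar N)
    (h₃ : coeffMap A.subtype y₃ ∈ modularFunctionFieldBar N),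
    coeffMap (IsLocalRing.residue A) y₂ ≠ 0 →
    (∀ P : Place Qb (FL N), (p : ℤ) ∣
      P.ord (1 + algebraMap Qb (FL N) (w ^ p * π') * ((⟨_, h₃⟩ : FL N) / ⟨_, h₂⟩))) →
    ∃ g : FL N, g ^ p = 1 + algebraMap Qb (FL N) (w ^ p * π') * ((⟨_, h₃⟩ : FL N) / ⟨_, h₂⟩)

/-- DEEP-11.  Deep Claim K at the levels divisible by `M ∈ {2, 3}`. -/
def Stmt_DeepKM : Prop :=
  ∀ (M N : ℕ) [NeZero N] (p : ℕ) [Fact p.Prime], (M = 2 ∨ M = 3) → M ∣ N → ¬ p ∣ N →
    ∀ A : ValuationSubring Qb, A.LiesOverPrime p → Stmt_DeepK_at N p A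

/-- DEEP-13.  A cube root in `FL (lcm N 2)` of an element of `FL N` lies in `FL N`
(`X₀(2N) → X₀(N)` is not Galois). -/
def Stmt_Cube : Prop :=
  ∀ (N : ℕ) [NeZero N] (u g : LaurentSeries Qb), u ∈ modularFunctionFieldBar N →
    g ∈ modularFunctionFieldBar (N.lcm 2) → g ^ 3 = u → g ∈ modularFunctionFieldBar N

/-- DEEP-12.  Deep Claim K at all levels prime to `p`, `p` odd. -/
def Stmt_DeepK : Prop :=
  ∀ (N : ℕ) [NeZero N] (p : ℕ) [Fact p.Prime], p ≠ 2 → ¬ p ∣ N →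
    ∀ A : ValuationSubring Qb, A.LiesOverPrime p → Stmt_DeepK_at N p A

end Fermat.Agent.INJ.Deep

end
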